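import Mathlib
import Fermat.Prelude.Def_AlgebraicCurve_DivisorClassGroup

/-!
# From principal divisors to all divisors: the positivity argument

Let `φ = r_* ∘ T` and `ψ = Ψ ∘ r_*` be two additive maps `Divisor K F →+ Divisor K' F'` built from a
map of places `r` and effectivity-preserving endomorphisms `T`, `Ψ`.  If `φ` and `ψ` agree on
enough divisors of the form `P + R - Z` (`R, Z ≥ 0`, `φ Z = ψ Z`, and the reduction of `R` avoiding
a prescribed finite set), and have the same degree at `P`, then `φ P = ψ P`.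
-/

set_option autoImplicit false

noncomputable section

namespace Fermat.Agent.Gateway.ES

open AlgebraicCurve

section Abstract

variable {K F K' F' : Type*} [Field K] [Field F] [Algebra K F] [Field K'] [Field F']
  [Algebra K' F']

theorem mapDomain_nonneg (r : Place K F → Place K' F') {D : Divisor K F} (hD : 0 ≤ D) :
    0 ≤ Finsupp.mapDomain r D := by
  classical
  intro Q
  rw [Finsupp.mapDomain, Finsupp.sum_apply]
  refine Finset.sum_nonneg fun P _ => ?_
  show 0 ≤ (Finsupp.single (r P) (D P)) Q
  rw [Finsupp.single_apply]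
  split_ifs
  · exact hD P
  · exact le_rfl

/-- Two effective divisors with `E ≤ E'` and the same degree are equal, when all places have
positive degree. -/
theorem eq_of_le_of_degree_eq (hdegpos : ∀ Q : Place K' F', 0 < Q.deg)
    {E E' : Divisor K' F'} (hle : E ≤ E') (hdeg : Divisor.degree E = Divisor.degree E') :
    E = E' := by
  classical
  have h0 : Divisor.degree (E' - E) = 0 := by rw [map_sub, hdeg, sub_self]
  have hnonneg : ∀ Q, 0 ≤ (E' - E) Q := fun Q => by
    rw [Finsupp.sub_apply]; exact sub_nonneg.mpr (hle Q)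
  have hsum : Divisor.degree (E' - E) = ∑ Q ∈ (E' - E).support, (E' - E) Q * (Q.deg : ℤ) := by
    rw [Divisor.degree, Finsupp.liftAddHom_apply, Finsupp.sum]
    rfl
  rw [hsum] at h0
  have hterm := (Finset.sum_eq_zero_iff_of_nonneg (fun Q _ =>
    mul_nonneg (hnonneg Q) (by exact_mod_cast (hdegpos Q).le))).mp h0
  ext Q
  by_cases hQ : Q ∈ (E' - E).support
  · have := hterm Q hQ
    have hd : (Q.deg : ℤ) ≠ 0 := by exact_mod_cast (hdegpos Q).ne'
    have h1 : (E' - E) Q = 0 := (mul_eq_zero.mp this).resolve_right hd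
    exact absurd h1 (Finsupp.mem_support_iff.mp hQ)
  · have h1 : (E' - E) Q = 0 := Finsupp.notMem_support_iff.mp hQ
    rw [Finsupp.sub_apply, sub_eq_zero] at h1
    exact h1.symm

/-- **Positivity argument.** -/
theorem eq_of_moving (r : Place K F → Place K' F')
    (T : Divisor K F →+ Divisor K F) (Ψ : Divisor K' F' →+ Divisor K' F')
    (hT : ∀ D, 0 ≤ D → 0 ≤ T D) (hΨ : ∀ D, 0 ≤ D → 0 ≤ Ψ D)
    (bad : Finset (Place K' F') → Finset (Place K' F'))
    (hbad : ∀ (B : Finset (Place K' F')) (D : Divisor K' F'), 0 ≤ D →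
      Disjoint D.support (bad B) → Disjoint (Ψ D).support B)
    (hdegpos : ∀ Q : Place K' F', 0 < Q.deg) (P : Place K F)
    (hdeg : Divisor.degree (Finsupp.mapDomain r (T (Finsupp.single P 1))) =
      Divisor.degree (Ψ (Finsupp.mapDomain r (Finsupp.single P 1))))
    (hmove : ∀ B : Finset (Place K' F'), ∃ R Z : Divisor K F, 0 ≤ R ∧ 0 ≤ Z ∧
      Finsupp.mapDomain r (T (Finsupp.single P 1 + R - Z)) =
        Ψ (Finsupp.mapDomain r (Finsupp.single P 1 + R - Z)) ∧
      Finsupp.mapDomain r (T Z) = Ψ (Finsupp.mapDomain r Z) ∧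
      Disjoint (Finsupp.mapDomain r R).support B) :
    Finsupp.mapDomain r (T (Finsupp.single P 1)) =
      Ψ (Finsupp.mapDomain r (Finsupp.single P 1)) := by
  classical
  set E := Finsupp.mapDomain r (T (Finsupp.single P 1)) with hE
  set E' := Ψ (Finsupp.mapDomain r (Finsupp.single P 1)) with hE'
  have hP0 : (0 : Divisor K F) ≤ Finsupp.single P 1 := by
    intro Q
    rw [Finsupp.single_apply]
    split_ifs <;> simp
  have hE0 : 0 ≤ E := mapDomain_nonneg r (hT _ hP0)
  have hE'0 : 0 ≤ E' := hΨ _ (mapDomain_nonneg r hP0)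
  obtain ⟨R, Z, hR, hZ, hD, hZeq, hdisj⟩ := hmove (bad (E.support ∪ E'.support))
  -- E + φ R = E' + ψ R
  have hkey : E + Finsupp.mapDomain r (T R) = E' + Ψ (Finsupp.mapDomain r R) := by
    have h1 : Finsupp.mapDomain r (T (Finsupp.single P 1 + R - Z)) =
        E + Finsupp.mapDomain r (T R) - Finsupp.mapDomain r (T Z) := by
      rw [map_sub, map_add, Finsupp.mapDomain_sub, Finsupp.mapDomain_add]
    have h2 : Ψ (Finsupp.mapDomain r (Finsupp.single P 1 + R - Z)) =
        E' + Ψ (Finsupp.mapDomain r R) - Ψ (Finsupp.mapDomain r Z) := by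
      rw [Finsupp.mapDomain_sub, Finsupp.mapDomain_add, map_sub, map_add]
    rw [h1, h2, hZeq] at hD
    exact sub_left_injective hD
  have hψR := hbad (E.support ∪ E'.support) _ (mapDomain_nonneg r hR) hdisj
  have hφR0 : 0 ≤ Finsupp.mapDomain r (T R) := mapDomain_nonneg r (hT _ hR)
  have hle : E ≤ E' := by
    intro Q
    by_cases hQ : Q ∈ E.support ∪ E'.support
    · have hz : (Ψ (Finsupp.mapDomain r R)) Q = 0 := by
        by_contra hne
        exact (Finset.disjoint_left.mp hψR) (Finsupp.mem_support_iff.mpr hne) hQ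
      have := congrArg (fun D => D Q) hkey
      simp only [Finsupp.add_apply, hz, add_zero] at this
      have h3 := hφR0 Q
      simp only [Finsupp.zero_apply] at h3
      omega
    · rw [Finset.mem_union, not_or] at hQ
      rw [Finsupp.notMem_support_iff.mp hQ.1, Finsupp.notMem_support_iff.mp hQ.2]
  exact eq_of_le_of_degree_eq hdegpos hle hdeg

end Abstract

end Fermat.Agent.Gateway.ES
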