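import Mathlib
import Fermat.Prelude.Def_ModularCurve_X0ModL

/-!
# The `ℓ`-th power map on Laurent series in characteristic `ℓ`

`f ^ ℓ = qExpand ℓ (coeffMap (frobenius k ℓ) f)`.
-/

set_option autoImplicit false

noncomputable section

namespace Fermat.Agent.Gateway.ES

open ModularCurve HahnSeries

section PowChar

variable {k : Type*} [CommRing k] (ℓ : ℕ) [hℓ : Fact ℓ.Prime] [CharP k ℓ]

theorem powerSeries_pow_char (p : PowerSeries k) :
    p ^ ℓ = (PowerSeries.expand ℓ hℓ.out.ne_zero p).map (frobenius k ℓ) := by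
  have : ExpChar k ℓ := ExpChar.prime hℓ.out
  exact (MvPowerSeries.map_frobenius_expand (σ := Unit) ℓ hℓ.out.ne_zero (f := p)).symm

omit [CharP k ℓ] in
theorem qExpand_ofPowerSeries (p : PowerSeries k) :
    qExpand k ℓ (HahnSeries.ofPowerSeries ℤ k p) =
      HahnSeries.ofPowerSeries ℤ k (PowerSeries.expand ℓ hℓ.out.ne_zero p) := by
  ext n
  by_cases hn : (ℓ : ℤ) ∣ n
  · obtain ⟨m, rfl⟩ := hn
    rw [qExpand_coeff_mul]
    rcases le_or_gt 0 m with hm | hm
    · lift m to ℕ using hm
      rw [HahnSeries.ofPowerSeries_apply_coeff,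
        show (ℓ : ℤ) * (m : ℤ) = ((ℓ * m : ℕ) : ℤ) by push_cast; ring,
        HahnSeries.ofPowerSeries_apply_coeff, PowerSeries.coeff_expand_mul]
    · rw [ofPowerSeries_coeff_of_neg _ hm, ofPowerSeries_coeff_of_neg]
      have : (0 : ℤ) < ℓ := by exact_mod_cast hℓ.out.pos
      nlinarith
  · rw [qExpand_coeff_of_not_dvd ℓ _ hn]
    rcases le_or_gt 0 n with hn0 | hn0
    · lift n to ℕ using hn0
      rw [HahnSeries.ofPowerSeries_apply_coeff, PowerSeries.coeff_expand_of_not_dvd]
      intro h
      exact hn (by exact_mod_cast h)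
    · rw [ofPowerSeries_coeff_of_neg _ hn0]

theorem pow_char_single_mul_ofPowerSeries (n : ℤ) (p : PowerSeries k) :
    (HahnSeries.single n (1 : k) * HahnSeries.ofPowerSeries ℤ k p) ^ ℓ =
      qExpand k ℓ (coeffMap (frobenius k ℓ)
        (HahnSeries.single n (1 : k) * HahnSeries.ofPowerSeries ℤ k p)) := by
  rw [mul_pow, map_mul, map_mul, coeffMap_single, qExpand_single, RingHom.map_one,
    HahnSeries.single_pow, one_pow, ← map_pow, powerSeries_pow_char, coeffMap_ofPowerSeries,
    qExpand_ofPowerSeries, ← PowerSeries.map_expand]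
  congr 2

theorem pow_char_eq_qExpand_coeffMap_frobenius (f : LaurentSeries k) :
    f ^ ℓ = qExpand k ℓ (coeffMap (frobenius k ℓ) f) := by
  have hf : HahnSeries.single f.order (1 : k) *
      HahnSeries.ofPowerSeries ℤ k (LaurentSeries.powerSeriesPart f) = f :=
    LaurentSeries.single_order_mul_powerSeriesPart f
  have h := pow_char_single_mul_ofPowerSeries ℓ f.order (LaurentSeries.powerSeriesPart f)
  rwa [hf] at h

end PowChar

end Fermat.Agent.Gateway.ES
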