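import Mathlib
import Fermat.Prelude.Def_ModularCurve_X0ModL
import Fermat.Prelude.Def_ModularCurve_ArithmeticGalois
import Fermat.Agent.Gateway.ES.FrobLaurent

/-!
# Coefficientwise automorphisms of the mod-`ℓ` modular function field

For a field `k` and a ring automorphism `τ` of `k`, the coefficientwise map `coeffMap τ`
preserves `modularFunctionFieldFullC k N` (its generators have coefficients in the prime ring),
giving a homomorphism `coeffGaloisC k N : (k ≃+* k) →* SemilinearAut k (modularFunctionFieldFullC k N)`;
this is the characteristic-`ℓ` analogue of the Prelude's `arithmeticGalois`.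
For perfect `k` of characteristic `ℓ` the image `frobC` of the Frobenius of `k` satisfies
`x ^ ℓ = qExpand ℓ (frobC • x)`.
-/

set_option autoImplicit false

noncomputable section

namespace Fermat.Agent.Gateway.ES

open ModularCurve HahnSeries AlgebraicCurve IntermediateField

section Membership

variable {k : Type*} [Field k] {N : ℕ}

theorem coeffMap_mem_fullC (τ : k →+* k) {x : LaurentSeries k}
    (hx : x ∈ modularFunctionFieldFullC k N) :
    coeffMap τ x ∈ modularFunctionFieldFullC k N := by
  unfold modularFunctionFieldFullC at hx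
  induction hx using IntermediateField.adjoin_induction with
  | mem y hy =>
      obtain ⟨d, hd, hdvd, rfl⟩ := hy
      have := hd
      rw [coeffMap_qExpand, coeffMap_jqModC]
      exact jqModCd_mem_full k N hdvd
  | algebraMap c =>
      rw [coeffMap_algebraMap]
      exact (modularFunctionFieldFullC k N).algebraMap_mem _
  | add x y _ _ hx hy => rw [map_add]; exact add_mem hx hy
  | inv x _ hx => rw [map_inv₀]; exact inv_mem hx
  | mul x y _ _ hx hy => rw [map_mul]; exact mul_mem hx hy

end Membership

section Aut

variable (k : Type*) [Field k] (N : ℕ)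

/-- The coefficientwise ring automorphism of `modularFunctionFieldFullC k N` induced by `τ`. -/
def coeffRingAutC (τ : k ≃+* k) :
    (modularFunctionFieldFullC k N) ≃+* (modularFunctionFieldFullC k N) where
  toFun x := ⟨coeffMap (τ : k →+* k) (x : LaurentSeries k), coeffMap_mem_fullC _ x.2⟩
  invFun x := ⟨coeffMap (τ.symm : k →+* k) (x : LaurentSeries k), coeffMap_mem_fullC _ x.2⟩
  left_inv x := Subtype.ext <| by
    show coeffMap (τ.symm : k →+* k) (coeffMap (τ : k →+* k) (x : LaurentSeries k))
      = (x : LaurentSeries k)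
    rw [coeffMap_coeffMap,
      coeffMap_congr (g := RingHom.id k) (RingHom.ext fun a => τ.symm_apply_apply a)
        (x : LaurentSeries k), coeffMap_id]
  right_inv x := Subtype.ext <| by
    show coeffMap (τ : k →+* k) (coeffMap (τ.symm : k →+* k) (x : LaurentSeries k))
      = (x : LaurentSeries k)
    rw [coeffMap_coeffMap,
      coeffMap_congr (g := RingHom.id k) (RingHom.ext fun a => τ.apply_symm_apply a)
        (x : LaurentSeries k), coeffMap_id]
  map_mul' x y :=
    Subtype.ext (map_mul (coeffMap (τ : k →+* k)) (x : LaurentSeries k) (y : LaurentSeries k))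
  map_add' x y :=
    Subtype.ext (map_add (coeffMap (τ : k →+* k)) (x : LaurentSeries k) (y : LaurentSeries k))

@[simp]
theorem coe_coeffRingAutC_apply (τ : k ≃+* k) (x : modularFunctionFieldFullC k N) :
    (coeffRingAutC k N τ x : LaurentSeries k) = coeffMap (τ : k →+* k) (x : LaurentSeries k) :=
  rfl

theorem coeffRingAutC_algebraMap (τ : k ≃+* k) (a : k) :
    coeffRingAutC k N τ (algebraMap k (modularFunctionFieldFullC k N) a)
      = algebraMap k (modularFunctionFieldFullC k N) (τ a) :=
  Subtype.ext (coeffMap_algebraMap (τ : k →+* k) a)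

/-- The characteristic-free analogue of `arithmeticGalois`: ring automorphisms of the constant
field act semilinearly, coefficientwise, on `modularFunctionFieldFullC k N`. -/
def coeffGaloisC : (k ≃+* k) →* SemilinearAut k (modularFunctionFieldFullC k N) where
  toFun τ := ⟨(coeffRingAutC k N τ, τ), fun a => coeffRingAutC_algebraMap k N τ a⟩
  map_one' := by
    refine Subtype.ext (Prod.ext (RingEquiv.ext fun x => Subtype.ext ?_) rfl)
    show coeffMap ((1 : k ≃+* k) : k →+* k) (x : LaurentSeries k) = (x : LaurentSeries k)
    rw [show ((1 : k ≃+* k) : k →+* k) = RingHom.id k from RingHom.ext fun _ => rfl,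
      coeffMap_id]
  map_mul' σ τ := by
    refine Subtype.ext (Prod.ext (RingEquiv.ext fun x => Subtype.ext ?_) rfl)
    show coeffMap ((σ * τ : k ≃+* k) : k →+* k) (x : LaurentSeries k)
      = coeffMap (σ : k →+* k) (coeffMap (τ : k →+* k) (x : LaurentSeries k))
    rw [coeffMap_coeffMap]
    exact coeffMap_congr (RingHom.ext fun _ => rfl) _

@[simp]
theorem toRingAut_coeffGaloisC (τ : k ≃+* k) :
    SemilinearAut.toRingAut (coeffGaloisC k N τ) = coeffRingAutC k N τ :=
  rfl

@[simp]
theorem baseAut_coeffGaloisC (τ : k ≃+* k) :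
    SemilinearAut.baseAut (coeffGaloisC k N τ) = τ :=
  rfl

theorem coe_coeffGaloisC_smul (τ : k ≃+* k) (x : modularFunctionFieldFullC k N) :
    ((coeffGaloisC k N τ • x : modularFunctionFieldFullC k N) : LaurentSeries k)
      = coeffMap (τ : k →+* k) (x : LaurentSeries k) :=
  rfl

theorem coe_coeffGaloisC_inv_smul (τ : k ≃+* k) (x : modularFunctionFieldFullC k N) :
    (((coeffGaloisC k N τ)⁻¹ • x : modularFunctionFieldFullC k N) : LaurentSeries k)
      = coeffMap (τ.symm : k →+* k) (x : LaurentSeries k) :=
  rfl

end Aut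

section Frobenius

variable (k : Type*) [Field k] (N : ℕ) (ℓ : ℕ) [hℓ : Fact ℓ.Prime] [CharP k ℓ] [PerfectRing k ℓ]

/-- The coefficientwise Frobenius of the mod-`ℓ` modular function field, as a semilinear
automorphism. -/
def frobC : SemilinearAut k (modularFunctionFieldFullC k N) :=
  coeffGaloisC k N (frobeniusEquiv k ℓ)

theorem coe_frobC_smul (x : modularFunctionFieldFullC k N) :
    ((frobC k N ℓ • x : modularFunctionFieldFullC k N) : LaurentSeries k)
      = coeffMap (frobenius k ℓ) (x : LaurentSeries k) :=
  rfl

/-- `x ^ ℓ = (Frob x)(q ^ ℓ)`. -/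
theorem pow_char_eq_qExpand_frobC (x : modularFunctionFieldFullC k N) :
    ((x : LaurentSeries k)) ^ ℓ = qExpand k ℓ ((frobC k N ℓ • x : modularFunctionFieldFullC k N) :
      LaurentSeries k) := by
  rw [coe_frobC_smul, pow_char_eq_qExpand_coeffMap_frobenius ℓ]

/-- `x(q ^ ℓ) = (Frob⁻¹ x) ^ ℓ`; in particular `qExpand ℓ` maps the function field to itself. -/
theorem qExpand_eq_frobC_inv_pow (x : modularFunctionFieldFullC k N) :
    qExpand k ℓ (x : LaurentSeries k) =
      ((((frobC k N ℓ)⁻¹ • x : modularFunctionFieldFullC k N)) : LaurentSeries k) ^ ℓ := by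
  rw [pow_char_eq_qExpand_frobC k N ℓ, smul_inv_smul]

theorem qExpand_mem_fullC (x : modularFunctionFieldFullC k N) :
    qExpand k ℓ (x : LaurentSeries k) ∈ modularFunctionFieldFullC k N := by
  rw [qExpand_eq_frobC_inv_pow k N ℓ]
  exact pow_mem (SetLike.coe_mem _) _

end Frobenius

end Fermat.Agent.Gateway.ES
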