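import Mathlib
import Fermat.Prelude.Def_AlgebraicCurve_DivisorClassGroup

/-!
# The torsion trick

An additive map from divisors to a torsion-free group which kills the principal divisors kills
every divisor a nonzero multiple of which is principal.  Consequently two "reduction-like"
additive maps `Divisor K F →+ Divisor K' F'` which agree on a generating set of principal
divisors agree on all divisors with torsion class.
-/

set_option autoImplicit false

noncomputable section

namespace Fermat.Agent.Gateway.ES

open AlgebraicCurve

section

variable {K F : Type*} [Field K] [Field F] [Algebra K F]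
variable {G : Type*} [AddCommGroup G] [IsAddTorsionFree G]

omit [IsAddTorsionFree G] in
/-- An additive map killing a set of divisors whose closure contains the principal divisors
kills the principal divisors. -/
theorem map_eq_zero_of_mem_principal (δ : Divisor K F →+ G) {S : Set (Divisor K F)}
    (hS : Divisor.principal (K := K) (F := F) ≤ AddSubgroup.closure S)
    (hδ : ∀ D ∈ S, δ D = 0) {D : Divisor K F}
    (hD : D ∈ Divisor.principal (K := K) (F := F)) : δ D = 0 := by
  have hD' := hS hD
  clear hD
  induction hD' using AddSubgroup.closure_induction with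
  | mem E hE => exact hδ E hE
  | zero => exact map_zero δ
  | add E E' _ _ hE hE' => rw [map_add, hE, hE', add_zero]
  | neg E _ hE => rw [map_neg, hE, neg_zero]

/-- **Torsion trick.** -/
theorem map_eq_zero_of_zsmul_mem_principal (δ : Divisor K F →+ G)
    (hδ : ∀ D ∈ Divisor.principal (K := K) (F := F), δ D = 0) {D : Divisor K F} {m : ℤ}
    (hm : m ≠ 0) (hD : m • D ∈ Divisor.principal (K := K) (F := F)) : δ D = 0 := by
  have h := hδ _ hD
  rw [map_zsmul] at h
  exact (smul_eq_zero_iff_right hm).mp h

/-- Two additive maps agreeing on a generating set of principal divisors agree on divisors with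
torsion class. -/
theorem map_eq_of_zsmul_mem_principal (φ ψ : Divisor K F →+ G) {S : Set (Divisor K F)}
    (hS : Divisor.principal (K := K) (F := F) ≤ AddSubgroup.closure S)
    (hφψ : ∀ D ∈ S, φ D = ψ D) {D : Divisor K F} {m : ℤ}
    (hm : m ≠ 0) (hD : m • D ∈ Divisor.principal (K := K) (F := F)) : φ D = ψ D := by
  have h := map_eq_zero_of_zsmul_mem_principal (φ - ψ)
    (fun E hE => map_eq_zero_of_mem_principal (φ - ψ) hS
      (fun E' hE' => by rw [AddMonoidHom.sub_apply, hφψ E' hE', sub_self]) hE) hm hD
  rwa [AddMonoidHom.sub_apply, sub_eq_zero] at h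

end

section Pic0

variable {K F : Type*} [Field K] [Field F] [Algebra K F]

/-- If `m • [D] = 0` in `Pic0` then `m • D` is principal. -/
theorem zsmul_mem_principal_of_zsmul_mk_eq_zero
    {D : Divisor.degZero (K := K) (F := F)} {m : ℤ} (h : m • Pic0.mk D = 0) :
    m • (D : Divisor K F) ∈ Divisor.principal (K := K) (F := F) := by
  have h1 : Pic0.mk (m • D) = 0 := by
    rw [← h]
    rfl
  have h2 : (m • D) ∈ (Divisor.principal (K := K) (F := F)).addSubgroupOf
      (Divisor.degZero (K := K) (F := F)) :=
    (QuotientAddGroup.eq_zero_iff _).mp h1
  rw [AddSubgroup.mem_addSubgroupOf] at h2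
  exact h2

end Pic0

end Fermat.Agent.Gateway.ES
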