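import Mathlib
import Fermat.Prelude.Def_ModularCurve_HeckeOperator
import Fermat.Prelude.Def_ModularCurve_ReductionModL
import Fermat.Agent.Gateway.ES.CoeffAut
import Fermat.Agent.Gateway.ES.TorsionTrick

/-!
# The Eichler–Shimura congruence on torsion classes (abstract form)

`DivRed r S res`: a "divisor reduction calculus" for a map of places `r`: a set `S` of functions
with a reduction `res`, such that `r_* div Y = div (res Y)` for `Y ∈ S` and such that the
`div Y`, `Y ∈ S`, generate the principal divisors.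

Main results (for every divisor `D` a nonzero multiple of which is principal):
* `mapDomain_heckeDivBar_of_torsion`:
  `r_* (T_ℓ D) = Frob • r_* D + ℓ • Frob⁻¹ • r_* D`, provided the norm `N_α (β Y)` of every
  `Y ∈ S` lies in `S` and reduces to `(res Y)(q^ℓ) * Frob (res Y)`;
* `mapDomain_galois_smul_of_torsion`: `r_* (σ • D) = τ • r_* D` provided `σ` preserves `S` and
  `res (σ Y) = τ (res Y)`.
-/

set_option autoImplicit false

noncomputable section

namespace Fermat.Agent.Gateway.ES

open ModularCurve HahnSeries AlgebraicCurve IntermediateField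

section DivRedDef

variable {K F K' F' : Type*} [Field K] [Field F] [Algebra K F] [Field K'] [Field F']
  [Algebra K' F']

/-- A divisor reduction calculus for the map of places `r`. -/
structure DivRed (r : Place K F → Place K' F') (S : Set F) (res : F → F') : Prop where
  ne_zero : ∀ Y ∈ S, Y ≠ 0
  res_ne_zero : ∀ Y ∈ S, res Y ≠ 0
  map_div : ∀ Y ∈ S, ∀ D : Divisor K F, (∀ P, D P = P.ord Y) →
    ∀ Q, Finsupp.mapDomain r D Q = Q.ord (res Y)
  gen : Divisor.principal (K := K) (F := F) ≤
    AddSubgroup.closure {D : Divisor K F | ∃ Y ∈ S, ∀ P, D P = P.ord Y}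

end DivRedDef

section SemilinearOrd

variable {K F : Type*} [Field K] [Field F] [Algebra K F]

theorem ord_semilinear_smul (g : SemilinearAut K F) (Q : Place K F) (f : F) :
    Q.ord (g • f) = (g⁻¹ • Q).ord f := by
  have h := SemilinearAut.ord_smul g (g⁻¹ • Q) f
  rwa [smul_inv_smul] at h

theorem divisor_smul_of_ord (g : SemilinearAut K F) {D : Divisor K F} {f : F}
    (hD : ∀ P, D P = P.ord f) (Q : Place K F) : (g • D) Q = Q.ord (g • f) := by
  rw [SemilinearAut.divisor_smul_apply, hD, ord_semilinear_smul]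

end SemilinearOrd

section HeckePrincipal

variable {L : Type*} [Field L] [Algebra ℚ L]
variable {N ℓ : ℕ} [NeZero N] [NeZero ℓ]

/-- The norm along `α : F_N → F_{Nℓ}`. -/
def normAlpha (z : laurentBaseChange L (modularFunctionFieldFull (N * ℓ))) :
    laurentBaseChange L (modularFunctionFieldFull N) :=
  letI := algebraAlong (heckeAlphaBar L N ℓ)
  Algebra.norm (laurentBaseChange L (modularFunctionFieldFull N)) z

variable (hα : HeckeAlphaBarIntegral L N ℓ) (hβ : HeckeBetaBarIntegral L N ℓ)
variable [HasPrincipalDivisors L (laurentBaseChange L (modularFunctionFieldFull (N * ℓ)))]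

/-- `T_ℓ (div Y) = div (N_α (β Y))`. -/
theorem heckeDivBar_apply_of_principal (hfin : FiniteAlong L (heckeAlphaBar L N ℓ))
    (hN : NormFormulaAlong L (heckeAlphaBar L N ℓ) hfin)
    {Y : laurentBaseChange L (modularFunctionFieldFull N)} (hY : Y ≠ 0)
    {D : Divisor L (laurentBaseChange L (modularFunctionFieldFull N))}
    (hD : ∀ P, D P = P.ord Y)
    (v : Place L (laurentBaseChange L (modularFunctionFieldFull N))) :
    heckeDivBar hα hβ D v = v.ord (normAlpha (heckeBetaBar L N ℓ Y)) := by
  have h1 : ∀ w, Divisor.pullbackAlong (heckeBetaBar L N ℓ) hβ D w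
      = w.ord (heckeBetaBar L N ℓ Y) := by
    intro w
    letI := algebraAlong (heckeBetaBar L N ℓ)
    haveI := isScalarTower_along (heckeBetaBar L N ℓ)
    haveI := isIntegral_along (heckeBetaBar L N ℓ) hβ
    exact Divisor.pullback_apply_eq_ord hD w
  have hY' : heckeBetaBar L N ℓ Y ≠ 0 := by
    intro h
    exact hY ((map_eq_zero_iff _ (heckeBetaBar L N ℓ).toRingHom.injective).mp h)
  exact hN (heckeBetaBar L N ℓ Y) hY' _ h1 v

end HeckePrincipal

section Core

variable {L : Type*} [Field L] [Algebra ℚ L]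
variable {k : Type*} [Field k]
variable {N ℓ : ℕ} [NeZero N] [hℓ : Fact ℓ.Prime] [CharP k ℓ] [PerfectRing k ℓ]
variable (hα : HeckeAlphaBarIntegral L N ℓ) (hβ : HeckeBetaBarIntegral L N ℓ)
variable [HasPrincipalDivisors L (laurentBaseChange L (modularFunctionFieldFull (N * ℓ)))]
variable {r : Place L (laurentBaseChange L (modularFunctionFieldFull N)) →
  Place k (modularFunctionFieldFullC k N)}

omit [NeZero N] in
/-- Order computation: if `n̄ = ȳ(q^ℓ) * Frob ȳ` then `div n̄ = ℓ Frob⁻¹ div ȳ + Frob div ȳ`. -/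
theorem ord_of_eq_qExpand_mul_frob {ybar nbar : modularFunctionFieldFullC k N}
    (hy : ybar ≠ 0)
    (hn : (nbar : LaurentSeries k) = qExpand k ℓ (ybar : LaurentSeries k) *
      coeffMap (frobenius k ℓ) (ybar : LaurentSeries k))
    {E : Divisor k (modularFunctionFieldFullC k N)} (hE : ∀ Q, E Q = Q.ord ybar)
    (Q : Place k (modularFunctionFieldFullC k N)) :
    Q.ord nbar = (frobC k N ℓ • E + (ℓ : ℤ) • ((frobC k N ℓ)⁻¹ • E)) Q := by
  have hnb : nbar = ((frobC k N ℓ)⁻¹ • ybar) ^ ℓ * (frobC k N ℓ • ybar) := by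
    apply Subtype.ext
    rw [hn, qExpand_eq_frobC_inv_pow k N ℓ]
    rfl
  have h1 : ((frobC k N ℓ)⁻¹ • ybar) ≠ 0 := by
    rw [Ne, smul_eq_zero_iff_eq]
    exact hy
  have h2 : (frobC k N ℓ • ybar) ≠ 0 := by
    rw [Ne, smul_eq_zero_iff_eq]
    exact hy
  rw [hnb, Q.ord_mul (pow_ne_zero _ h1) h2, ← zpow_natCast, Q.ord_zpow, Finsupp.add_apply,
    Finsupp.smul_apply, divisor_smul_of_ord _ hE, divisor_smul_of_ord _ hE, smul_eq_mul]
  ring

variable {S : Set (laurentBaseChange L (modularFunctionFieldFull N))}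
  {res : laurentBaseChange L (modularFunctionFieldFull N) → modularFunctionFieldFullC k N}

/-- **Eichler–Shimura congruence on torsion divisors classes** (abstract form). -/
theorem mapDomain_heckeDivBar_of_torsion (hdr : DivRed r S res)
    (hfin : FiniteAlong L (heckeAlphaBar L N ℓ))
    (hN : NormFormulaAlong L (heckeAlphaBar L N ℓ) hfin)
    (hnorm : ∀ Y ∈ S, normAlpha (heckeBetaBar L N ℓ Y) ∈ S ∧
      ((res (normAlpha (heckeBetaBar L N ℓ Y)) : modularFunctionFieldFullC k N) :
          LaurentSeries k) =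
        qExpand k ℓ ((res Y : modularFunctionFieldFullC k N) : LaurentSeries k) *
          coeffMap (frobenius k ℓ) ((res Y : modularFunctionFieldFullC k N) : LaurentSeries k))
    {D : Divisor L (laurentBaseChange L (modularFunctionFieldFull N))} {m : ℤ} (hm : m ≠ 0)
    (hD : m • D ∈ Divisor.principal (K := L)
      (F := laurentBaseChange L (modularFunctionFieldFull N))) :
    Finsupp.mapDomain r (heckeDivBar hα hβ D) =
      frobC k N ℓ • Finsupp.mapDomain r D +
        (ℓ : ℤ) • ((frobC k N ℓ)⁻¹ • Finsupp.mapDomain r D) := by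
  have key := map_eq_of_zsmul_mem_principal
    (φ := (Finsupp.mapDomain.addMonoidHom r).comp (heckeDivBar hα hβ))
    (ψ := ((DistribSMul.toAddMonoidHom (Divisor k (modularFunctionFieldFullC k N))
          (frobC k N ℓ)) +
        (ℓ : ℤ) • (DistribSMul.toAddMonoidHom (Divisor k (modularFunctionFieldFullC k N))
          (frobC k N ℓ)⁻¹)).comp (Finsupp.mapDomain.addMonoidHom r))
    hdr.gen ?_ hm hD
  · exact key
  · rintro E ⟨Y, hYS, hE⟩
    obtain ⟨hnS, hnres⟩ := hnorm Y hYS
    ext Q
    show Finsupp.mapDomain r (heckeDivBar hα hβ E) Q =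
      (frobC k N ℓ • Finsupp.mapDomain r E +
        (ℓ : ℤ) • ((frobC k N ℓ)⁻¹ • Finsupp.mapDomain r E)) Q
    rw [hdr.map_div _ hnS (heckeDivBar hα hβ E)
      (fun v => heckeDivBar_apply_of_principal hα hβ hfin hN (hdr.ne_zero Y hYS) hE v) Q]
    exact ord_of_eq_qExpand_mul_frob (hdr.res_ne_zero Y hYS) hnres
      (hdr.map_div Y hYS E hE) Q

end Core

section Galois

variable {L : Type*} [Field L] [Algebra ℚ L]
variable {k : Type*} [Field k]
variable {N : ℕ}
variable {r : Place L (laurentBaseChange L (modularFunctionFieldFull N)) →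
  Place k (modularFunctionFieldFullC k N)}
variable {S : Set (laurentBaseChange L (modularFunctionFieldFull N))}
  {res : laurentBaseChange L (modularFunctionFieldFull N) → modularFunctionFieldFullC k N}

/-- **Galois equivariance of the reduction on torsion divisor classes** (abstract form). -/
theorem mapDomain_galois_smul_of_torsion (hdr : DivRed r S res) (σ : L ≃ₐ[ℚ] L) (τ : k ≃+* k)
    (hσ : ∀ Y ∈ S, arithmeticGalois (modularFunctionFieldFull N) σ • Y ∈ S ∧
      res (arithmeticGalois (modularFunctionFieldFull N) σ • Y) = coeffGaloisC k N τ • res Y)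
    {D : Divisor L (laurentBaseChange L (modularFunctionFieldFull N))} {m : ℤ} (hm : m ≠ 0)
    (hD : m • D ∈ Divisor.principal (K := L)
      (F := laurentBaseChange L (modularFunctionFieldFull N))) :
    Finsupp.mapDomain r (arithmeticGalois (modularFunctionFieldFull N) σ • D) =
      coeffGaloisC k N τ • Finsupp.mapDomain r D := by
  have key := map_eq_of_zsmul_mem_principal
    (φ := (Finsupp.mapDomain.addMonoidHom r).comp
      (DistribSMul.toAddMonoidHom (Divisor L (laurentBaseChange L (modularFunctionFieldFull N)))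
        (arithmeticGalois (modularFunctionFieldFull N) σ)))
    (ψ := (DistribSMul.toAddMonoidHom (Divisor k (modularFunctionFieldFullC k N))
          (coeffGaloisC k N τ)).comp (Finsupp.mapDomain.addMonoidHom r))
    hdr.gen ?_ hm hD
  · exact key
  · rintro E ⟨Y, hYS, hE⟩
    obtain ⟨hσS, hσres⟩ := hσ Y hYS
    ext Q
    show Finsupp.mapDomain r (arithmeticGalois (modularFunctionFieldFull N) σ • E) Q =
      (coeffGaloisC k N τ • Finsupp.mapDomain r E) Q
    rw [hdr.map_div _ hσS _ (fun P => divisor_smul_of_ord _ hE P) Q, hσres,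
      divisor_smul_of_ord _ (hdr.map_div Y hYS E hE)]

end Galois

end Fermat.Agent.Gateway.ES
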