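import Mathlib
import Fermat.Agent.Gateway.ES.Congruence

/-!
# The integral instance of the divisor reduction calculus

Given a reduction of places `r` with the Prelude's `IsPlaceReductionAlong A π N r` and
`PrincipalGeneratedByIntegral A π N`, the functions with `A`-integral `q`-expansion and nonzero
reduction in the mod-`ℓ` function field form a `DivRed`.  We then restate the Eichler–Shimura
congruence and the Galois equivariance on torsion classes of `Pic0` for `reductionAlong`.
-/

set_option autoImplicit false

noncomputable section

namespace Fermat.Agent.Gateway.ES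

open ModularCurve HahnSeries AlgebraicCurve IntermediateField

section IntegralSet

variable {L : Type*} [Field L] [Algebra ℚ L] (A : ValuationSubring L)
variable {k : Type*} [Field k] (π : A →+* k) (N : ℕ)

theorem coeffMap_injective {R S : Type*} [CommRing R] [CommRing S] (f : R →+* S)
    (hf : Function.Injective f) : Function.Injective (coeffMap f) := by
  intro x y h
  ext n
  apply hf
  have := congrArg (fun z => z.coeff n) h
  simpa using this

theorem coeffMap_subtype_injective : Function.Injective (coeffMap A.subtype) :=
  coeffMap_injective _ Subtype.val_injective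

/-- Functions with `A`-integral `q`-expansion whose reduction is a nonzero element of the
mod-`ℓ` function field. -/
def integralSet : Set (laurentBaseChange L (modularFunctionFieldFull N)) :=
  {Y | ∃ y : LaurentSeries A, coeffMap A.subtype y = (Y : LaurentSeries L) ∧
    coeffMap π y ∈ modularFunctionFieldFullC k N ∧ coeffMap π y ≠ 0}

open Classical in
/-- The reduction of a function with `A`-integral `q`-expansion (junk otherwise). -/
def integralRes (Y : laurentBaseChange L (modularFunctionFieldFull N)) :
    modularFunctionFieldFullC k N :=
  if h : ∃ y : LaurentSeries A, coeffMap A.subtype y = (Y : LaurentSeries L) ∧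
      coeffMap π y ∈ modularFunctionFieldFullC k N then
    ⟨coeffMap π h.choose, h.choose_spec.2⟩
  else 0

variable {A π N}

theorem coe_integralRes {Y : laurentBaseChange L (modularFunctionFieldFull N)}
    {y : LaurentSeries A} (h1 : coeffMap A.subtype y = (Y : LaurentSeries L))
    (h2 : coeffMap π y ∈ modularFunctionFieldFullC k N) :
    ((integralRes A π N Y : modularFunctionFieldFullC k N) : LaurentSeries k) = coeffMap π y := by
  have h : ∃ y : LaurentSeries A, coeffMap A.subtype y = (Y : LaurentSeries L) ∧
      coeffMap π y ∈ modularFunctionFieldFullC k N := ⟨y, h1, h2⟩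
  rw [integralRes, dif_pos h]
  have : h.choose = y := coeffMap_subtype_injective A (h.choose_spec.1.trans h1.symm)
  show coeffMap π h.choose = coeffMap π y
  rw [this]

theorem integralRes_eq {Y : laurentBaseChange L (modularFunctionFieldFull N)}
    {y : LaurentSeries A} (h1 : coeffMap A.subtype y = (Y : LaurentSeries L))
    (h2 : coeffMap π y ∈ modularFunctionFieldFullC k N) :
    integralRes A π N Y = ⟨coeffMap π y, h2⟩ :=
  Subtype.ext (coe_integralRes h1 h2)

variable {r : Place L (laurentBaseChange L (modularFunctionFieldFull N)) →
  Place k (modularFunctionFieldFullC k N)}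

/-- The integral instance of `DivRed`. -/
theorem divRed_integral (hr : IsPlaceReductionAlong A π N r)
    (hgen : PrincipalGeneratedByIntegral A π N) :
    DivRed r (integralSet A π N) (integralRes A π N) where
  ne_zero := by
    rintro Y ⟨y, h1, -, h3⟩ rfl
    apply h3
    have : y = 0 := coeffMap_subtype_injective A (by rw [h1, map_zero]; rfl)
    rw [this, map_zero]
  res_ne_zero := by
    rintro Y ⟨y, h1, h2, h3⟩ h
    apply h3
    rw [← coe_integralRes h1 h2, h]
    rfl
  map_div := by
    rintro Y ⟨y, h1, h2, h3⟩ D hD Q
    have hy : coeffMap A.subtype y ∈ laurentBaseChange L (modularFunctionFieldFull N) := by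
      rw [h1]; exact Y.2
    have hYeq : Y = ⟨coeffMap A.subtype y, hy⟩ := Subtype.ext h1.symm
    rw [integralRes_eq h1 h2]
    exact hr.2 y hy h2 h3 D (fun P => by rw [hD P, hYeq]) Q
  gen := by
    refine hgen.trans (AddSubgroup.closure_mono ?_)
    rintro D ⟨y, hy, h2, h3, hD⟩
    exact ⟨⟨coeffMap A.subtype y, hy⟩, ⟨y, rfl, h2, h3⟩, hD⟩

end IntegralSet

end Fermat.Agent.Gateway.ES
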