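import Mathlib
import Fermat.Agent.Gateway.ES.Integral

/-!
# Eichler–Shimura congruence and Galois equivariance of `reductionAlong` on torsion classes
-/

set_option autoImplicit false

noncomputable section

namespace Fermat.Agent.Gateway.ES

open ModularCurve HahnSeries AlgebraicCurve IntermediateField

section NormIntegral

variable {L : Type*} [Field L] [Algebra ℚ L] (A : ValuationSubring L)
variable {k : Type*} [Field k] (π : A →+* k) (N ℓ : ℕ) [NeZero N] [hℓ : Fact ℓ.Prime]
  [CharP k ℓ]

/-- The norm reduction input (H3): for `y` with `A`-integral `q`-expansion and nonzero reduction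
`ȳ` in the mod-`ℓ` function field, the norm `N_α (β y)` has `A`-integral `q`-expansion, with
reduction `ȳ(q^ℓ) * Frob ȳ`. -/
def NormReductionIntegral : Prop :=
  ∀ (y : LaurentSeries A)
    (hy : coeffMap A.subtype y ∈ laurentBaseChange L (modularFunctionFieldFull N)),
    coeffMap π y ∈ modularFunctionFieldFullC k N → coeffMap π y ≠ 0 →
    ∃ n : LaurentSeries A,
      coeffMap A.subtype n =
        ((normAlpha (heckeBetaBar L N ℓ ⟨coeffMap A.subtype y, hy⟩) :
          laurentBaseChange L (modularFunctionFieldFull N)) : LaurentSeries L) ∧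
      coeffMap π n = qExpand k ℓ (coeffMap π y) * coeffMap (frobenius k ℓ) (coeffMap π y)

variable {A π N ℓ}

theorem hnorm_of_normReductionIntegral [PerfectRing k ℓ]
    (h : NormReductionIntegral A π N ℓ) :
    ∀ Y ∈ integralSet A π N, normAlpha (heckeBetaBar L N ℓ Y) ∈ integralSet A π N ∧
      ((integralRes A π N (normAlpha (heckeBetaBar L N ℓ Y)) : modularFunctionFieldFullC k N) :
          LaurentSeries k) =
        qExpand k ℓ ((integralRes A π N Y : modularFunctionFieldFullC k N) : LaurentSeries k) *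
          coeffMap (frobenius k ℓ)
            ((integralRes A π N Y : modularFunctionFieldFullC k N) : LaurentSeries k) := by
  rintro Y ⟨y, h1, h2, h3⟩
  have hy : coeffMap A.subtype y ∈ laurentBaseChange L (modularFunctionFieldFull N) := by
    rw [h1]; exact Y.2
  have hYeq : Y = ⟨coeffMap A.subtype y, hy⟩ := Subtype.ext h1.symm
  obtain ⟨n, hn1, hn2⟩ := h y hy h2 h3
  rw [← hYeq] at hn1
  have hmem : coeffMap π n ∈ modularFunctionFieldFullC k N := by
    rw [hn2]
    exact mul_mem (qExpand_mem_fullC k N ℓ ⟨_, h2⟩) (coeffMap_mem_fullC _ h2)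
  have hne : coeffMap π n ≠ 0 := by
    rw [hn2]
    refine mul_ne_zero ?_ ?_
    · rw [Ne, map_eq_zero_iff _ (qExpand_injective ℓ)]
      exact h3
    · rw [Ne, map_eq_zero_iff _ (coeffMap_injective _ (frobenius k ℓ).injective)]
      exact h3
  refine ⟨⟨n, hn1, hmem, hne⟩, ?_⟩
  rw [coe_integralRes hn1 hmem, coe_integralRes h1 h2, hn2]

end NormIntegral

section Pic0Hecke

variable {L : Type*} [Field L] [Algebra ℚ L] {A : ValuationSubring L}
variable {k : Type*} [Field k] {π : A →+* k}
variable {N ℓ : ℕ} [NeZero N] [hℓ : Fact ℓ.Prime] [CharP k ℓ] [PerfectRing k ℓ]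
variable (hα : HeckeAlphaBarIntegral L N ℓ) (hβ : HeckeBetaBarIntegral L N ℓ)
variable [HasPrincipalDivisors L (laurentBaseChange L (modularFunctionFieldFull (N * ℓ)))]

/-- **Eichler–Shimura congruence for `reductionAlong` on torsion classes.** -/
theorem reductionAlong_hecke_of_torsion
    (hFI : FundamentalIdentityAlong L (heckeBetaBar L N ℓ) hβ)
    (hfin : FiniteAlong L (heckeAlphaBar L N ℓ))
    (hN : NormFormulaAlong L (heckeAlphaBar L N ℓ) hfin)
    (h : ReductionInputsAlong A π N) (hnorm : NormReductionIntegral A π N ℓ)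
    (x : Pic0 L (laurentBaseChange L (modularFunctionFieldFull N))) {m : ℤ} (hm : m ≠ 0)
    (hx : m • x = 0) :
    reductionAlong A π N (heckePic0Bar hα hβ hFI hfin hN x) =
      frobC k N ℓ • reductionAlong A π N x +
        (ℓ : ℤ) • ((frobC k N ℓ)⁻¹ • reductionAlong A π N x) := by
  obtain ⟨D, rfl⟩ := Pic0.mk_surjective x
  have hdiv := mapDomain_heckeDivBar_of_torsion hα hβ
    (divRed_integral h.choose_spec.1 h.choose_spec.2) hfin hN
    (hnorm_of_normReductionIntegral hnorm) hm (zsmul_mem_principal_of_zsmul_mk_eq_zero hx)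
  have h1 : heckePic0Bar hα hβ hFI hfin hN (Pic0.mk D) =
      Pic0.mk (Pic0.degZeroCorrespondence (heckeBetaBar L N ℓ) (heckeAlphaBar L N ℓ) hβ hα hFI D) :=
    rfl
  rw [h1, reductionAlong_mk h, reductionAlong_mk h, SemilinearAut.pic0_smul_mk,
    SemilinearAut.pic0_smul_mk]
  refine (congrArg Pic0.mk (Subtype.ext ?_) :
    Pic0.mk _ = Pic0.mk (SemilinearAut.degZeroSMulHom (frobC k N ℓ) _ +
      (ℓ : ℤ) • SemilinearAut.degZeroSMulHom (frobC k N ℓ)⁻¹ _))
  exact hdiv

end Pic0Hecke

end Fermat.Agent.Gateway.ES
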