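import Mathlib
import Fermat.Prelude.Def_EllipticCurve_FrobeniusTrace
import Fermat.Agent.Gateway.ES.Pic0

/-!
# Galois equivariance of `reductionAlong` on torsion classes

For `σ : L ≃ₐ[ℚ] L` preserving the valuation ring `A` and inducing `τ` on the residue field,
`reductionAlong A π N (σ • x) = coeffGaloisC k N τ • reductionAlong A π N x` for torsion `x`.
Specialisations to inertia and Frobenius elements for `π = IsLocalRing.residue A`.
-/

set_option autoImplicit false

noncomputable section

namespace Fermat.Agent.Gateway.ES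

open ModularCurve HahnSeries AlgebraicCurve IntermediateField

section General

variable {L : Type*} [Field L] [Algebra ℚ L] {A : ValuationSubring L}
variable {k : Type*} [Field k] {π : A →+* k} {N : ℕ}

theorem hσ_of_compat (σ : L ≃ₐ[ℚ] L) (σA : A →+* A) (hσA : ∀ a : A, ((σA a : A) : L) = σ a)
    (τ : k ≃+* k) (hτ : ∀ a : A, π (σA a) = τ (π a)) :
    ∀ Y ∈ integralSet A π N,
      arithmeticGalois (modularFunctionFieldFull N) σ • Y ∈ integralSet A π N ∧
      integralRes A π N (arithmeticGalois (modularFunctionFieldFull N) σ • Y) =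
        coeffGaloisC k N τ • integralRes A π N Y := by
  rintro Y ⟨y, h1, h2, h3⟩
  have e1 : coeffMap A.subtype (coeffMap σA y) =
      ((arithmeticGalois (modularFunctionFieldFull N) σ • Y :
        laurentBaseChange L (modularFunctionFieldFull N)) : LaurentSeries L) := by
    rw [coe_arithmeticGalois_smul, ← h1, coeffMap_coeffMap, coeffMap_coeffMap]
    exact coeffMap_congr (RingHom.ext fun a => hσA a) y
  have e2 : coeffMap π (coeffMap σA y) = coeffMap (τ : k →+* k) (coeffMap π y) := by
    rw [coeffMap_coeffMap, coeffMap_coeffMap]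
    exact coeffMap_congr (RingHom.ext fun a => hτ a) y
  have hmem : coeffMap π (coeffMap σA y) ∈ modularFunctionFieldFullC k N := by
    rw [e2]; exact coeffMap_mem_fullC _ h2
  have hne : coeffMap π (coeffMap σA y) ≠ 0 := by
    rw [e2, Ne, map_eq_zero_iff _ (coeffMap_injective _ τ.injective)]
    exact h3
  refine ⟨⟨coeffMap σA y, e1, hmem, hne⟩, Subtype.ext ?_⟩
  rw [coe_integralRes e1 hmem, coe_coeffGaloisC_smul, coe_integralRes h1 h2, e2]

/-- **Galois equivariance of `reductionAlong` on torsion classes.** -/
theorem reductionAlong_galois_smul_of_torsion (h : ReductionInputsAlong A π N)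
    (σ : L ≃ₐ[ℚ] L) (σA : A →+* A) (hσA : ∀ a : A, ((σA a : A) : L) = σ a)
    (τ : k ≃+* k) (hτ : ∀ a : A, π (σA a) = τ (π a))
    (x : Pic0 L (laurentBaseChange L (modularFunctionFieldFull N))) {m : ℤ} (hm : m ≠ 0)
    (hx : m • x = 0) :
    reductionAlong A π N (σ • x) = coeffGaloisC k N τ • reductionAlong A π N x := by
  obtain ⟨D, rfl⟩ := Pic0.mk_surjective x
  have hdiv := mapDomain_galois_smul_of_torsion
    (divRed_integral h.choose_spec.1 h.choose_spec.2) σ τ
    (hσ_of_compat σ σA hσA τ hτ) hm (zsmul_mem_principal_of_zsmul_mk_eq_zero hx)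
  rw [galois_smul_pic0_def, SemilinearAut.pic0_smul_mk, reductionAlong_mk h,
    reductionAlong_mk h, SemilinearAut.pic0_smul_mk]
  exact congrArg Pic0.mk (Subtype.ext hdiv)

end General

section Residue

variable {L : Type*} [Field L] [Algebra ℚ L] {A : ValuationSubring L} {N : ℕ}

/-- Elements of the decomposition group: equivariance with respect to the induced automorphism
of the residue field. -/
theorem reductionAlong_decomposition_smul_of_torsion
    (h : ReductionInputsAlong A (IsLocalRing.residue A) N)
    (g : A.decompositionSubgroup ℚ)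
    (x : Pic0 L (laurentBaseChange L (modularFunctionFieldFull N))) {m : ℤ} (hm : m ≠ 0)
    (hx : m • x = 0) :
    reductionAlong A (IsLocalRing.residue A) N ((g : L ≃ₐ[ℚ] L) • x) =
      coeffGaloisC (IsLocalRing.ResidueField A) N
        (MulSemiringAction.toRingAut (A.decompositionSubgroup ℚ) (IsLocalRing.ResidueField A) g) •
        reductionAlong A (IsLocalRing.residue A) N x :=
  reductionAlong_galois_smul_of_torsion h (g : L ≃ₐ[ℚ] L)
    (MulSemiringAction.toRingHom (A.decompositionSubgroup ℚ) A g) (fun _ => rfl)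
    _ (fun _ => rfl) x hm hx

/-- Inertia acts trivially on the reduction of torsion classes. -/
theorem reductionAlong_inertia_smul_of_torsion
    (h : ReductionInputsAlong A (IsLocalRing.residue A) N)
    {σ : L ≃ₐ[ℚ] L} (hσ : σ ∈ A.inertiaSubgroupIn ℚ)
    (x : Pic0 L (laurentBaseChange L (modularFunctionFieldFull N))) {m : ℤ} (hm : m ≠ 0)
    (hx : m • x = 0) :
    reductionAlong A (IsLocalRing.residue A) N (σ • x) =
      reductionAlong A (IsLocalRing.residue A) N x := by
  obtain ⟨g, hg, rfl⟩ := hσ
  have h1 : MulSemiringAction.toRingAut (A.decompositionSubgroup ℚ)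
      (IsLocalRing.ResidueField A) g = 1 := hg
  have := reductionAlong_decomposition_smul_of_torsion h g x hm hx
  rw [h1, map_one, one_smul] at this
  exact this

/-- Frobenius elements act on the reduction of torsion classes by the coefficient Frobenius. -/
theorem reductionAlong_frobenius_smul_of_torsion {ℓ : ℕ} [hℓ : Fact ℓ.Prime]
    [CharP (IsLocalRing.ResidueField A) ℓ] [PerfectRing (IsLocalRing.ResidueField A) ℓ]
    (h : ReductionInputsAlong A (IsLocalRing.residue A) N)
    {σ : L ≃ₐ[ℚ] L} (hσ : A.IsFrobeniusAt σ ℓ)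
    (x : Pic0 L (laurentBaseChange L (modularFunctionFieldFull N))) {m : ℤ} (hm : m ≠ 0)
    (hx : m • x = 0) :
    reductionAlong A (IsLocalRing.residue A) N (σ • x) =
      frobC (IsLocalRing.ResidueField A) N ℓ • reductionAlong A (IsLocalRing.residue A) N x := by
  obtain ⟨hmem, hfrob⟩ := hσ
  have h1 : MulSemiringAction.toRingAut (A.decompositionSubgroup ℚ)
      (IsLocalRing.ResidueField A) ⟨σ, hmem⟩ = frobeniusEquiv (IsLocalRing.ResidueField A) ℓ := by
    ext z
    rw [MulSemiringAction.toRingAut_apply]
    exact (hfrob z).trans (by rw [frobeniusEquiv_apply, frobenius_def])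
  have := reductionAlong_decomposition_smul_of_torsion h ⟨σ, hmem⟩ x hm hx
  rw [h1] at this
  exact this

end Residue

end Fermat.Agent.Gateway.ES
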