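import Mathlib
import Fermat.Agent.Gateway.ES.GaloisRed

/-!
# Raw forms of `UnramifiedOutside` and `FrobeniusQuadratic` on torsion classes

Inputs: the reduction inputs at level `N`, the norm reduction input, and injectivity of the
reduction on `m`-torsion.
-/

set_option autoImplicit false

noncomputable section

namespace Fermat.Agent.Gateway.ES

open ModularCurve HahnSeries AlgebraicCurve IntermediateField

section

variable {L : Type*} [Field L] [Algebra ℚ L] {A : ValuationSubring L} {N : ℕ}

theorem galois_smul_zsmul (σ : L ≃ₐ[ℚ] L) (m : ℤ)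
    (x : Pic0 L (laurentBaseChange L (modularFunctionFieldFull N))) :
    σ • (m • x) = m • (σ • x) := by
  rw [galois_smul_pic0_def, galois_smul_pic0_def, SemilinearAut.smul_zsmul]

/-- Raw unramifiedness: inertia fixes the `m`-torsion classes, provided the reduction is
injective on `m`-torsion. -/
theorem inertia_smul_eq_of_torsion
    (h : ReductionInputsAlong A (IsLocalRing.residue A) N)
    {σ : L ≃ₐ[ℚ] L} (hσ : σ ∈ A.inertiaSubgroupIn ℚ)
    (x : Pic0 L (laurentBaseChange L (modularFunctionFieldFull N))) {m : ℤ} (hm : m ≠ 0)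
    (hx : m • x = 0)
    (hinj : ∀ z : Pic0 L (laurentBaseChange L (modularFunctionFieldFull N)), m • z = 0 →
      reductionAlong A (IsLocalRing.residue A) N z = 0 → z = 0) :
    σ • x = x := by
  have hz : m • (σ • x - x) = 0 := by
    rw [zsmul_sub, ← galois_smul_zsmul, hx,
      smul_zero (A := Pic0 L (laurentBaseChange L (modularFunctionFieldFull N))) σ, sub_zero]
  have := hinj _ hz (by
    rw [map_sub, reductionAlong_inertia_smul_of_torsion h hσ x hm hx, sub_self])
  exact sub_eq_zero.mp this

variable {ℓ : ℕ} [NeZero N] [hℓ : Fact ℓ.Prime]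
  [CharP (IsLocalRing.ResidueField A) ℓ] [PerfectRing (IsLocalRing.ResidueField A) ℓ]
variable (hα : HeckeAlphaBarIntegral L N ℓ) (hβ : HeckeBetaBarIntegral L N ℓ)
variable [HasPrincipalDivisors L (laurentBaseChange L (modularFunctionFieldFull (N * ℓ)))]

/-- Raw Eichler–Shimura relation `σ² - T_ℓ σ + ℓ = 0` on `m`-torsion classes for a Frobenius
element `σ` at `ℓ`, provided the reduction is injective on `m`-torsion. -/
theorem frobenius_quadratic_of_torsion
    (hFI : FundamentalIdentityAlong L (heckeBetaBar L N ℓ) hβ)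
    (hfin : FiniteAlong L (heckeAlphaBar L N ℓ))
    (hN : NormFormulaAlong L (heckeAlphaBar L N ℓ) hfin)
    (h : ReductionInputsAlong A (IsLocalRing.residue A) N)
    (hnorm : NormReductionIntegral A (IsLocalRing.residue A) N ℓ)
    {σ : L ≃ₐ[ℚ] L} (hσ : A.IsFrobeniusAt σ ℓ)
    (x : Pic0 L (laurentBaseChange L (modularFunctionFieldFull N))) {m : ℤ} (hm : m ≠ 0)
    (hx : m • x = 0)
    (hinj : ∀ z : Pic0 L (laurentBaseChange L (modularFunctionFieldFull N)), m • z = 0 →
      reductionAlong A (IsLocalRing.residue A) N z = 0 → z = 0) :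
    σ • σ • x - heckePic0Bar hα hβ hFI hfin hN (σ • x) + (ℓ : ℤ) • x = 0 := by
  have hσx : m • (σ • x) = 0 := by
    rw [← galois_smul_zsmul, hx,
      smul_zero (A := Pic0 L (laurentBaseChange L (modularFunctionFieldFull N))) σ]
  have hσσx : m • (σ • σ • x) = 0 := by
    rw [← galois_smul_zsmul, hσx,
      smul_zero (A := Pic0 L (laurentBaseChange L (modularFunctionFieldFull N))) σ]
  apply hinj
  · rw [zsmul_add, zsmul_sub, hσσx, ← map_zsmul, hσx, map_zero, smul_comm, hx, zsmul_zero,
      sub_zero, add_zero]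
  · have e1 := reductionAlong_frobenius_smul_of_torsion h hσ x hm hx
    have e2 := reductionAlong_frobenius_smul_of_torsion h hσ (σ • x) hm hσx
    have e3 := reductionAlong_hecke_of_torsion hα hβ hFI hfin hN h hnorm (σ • x) hm hσx
    rw [e1] at e2 e3
    rw [inv_smul_smul (frobC (IsLocalRing.ResidueField A) N ℓ)] at e3
    rw [map_add, map_sub, map_zsmul, e2]
    exact (sub_add_eq_add_sub _ _ _).trans (sub_eq_zero.mpr e3.symm)

end

end Fermat.Agent.Gateway.ES
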