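import Mathlib
import Fermat.Agent.Gateway.ES.Quadratic
import Fermat.Agent.Gateway.ES.Moving

/-!
# Eichler–Shimura congruence and Galois equivariance for ALL divisors (abstract form)

The torsion-level statements of `Congruence.lean` are upgraded to all divisors by the positivity
argument of `Moving.lean`, given a moving hypothesis: for every place `P` and every finite set `B`
of places of the mod-`ℓ` function field there are effective divisors `R`, `Z` with
`P + R - Z` principal, the identity already known for `Z`, and the reduction of `R` avoiding `B`.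
-/

set_option autoImplicit false

noncomputable section

namespace Fermat.Agent.Gateway.ES

open ModularCurve HahnSeries AlgebraicCurve IntermediateField

section Effectivity

variable {K F F' : Type*} [Field K] [Field F] [Field F'] [Algebra K F] [Algebra K F']

theorem pullbackAlong_nonneg [HasPrincipalDivisors K F'] (φ : F →ₐ[K] F')
    (hφ : φ.toRingHom.IsIntegral) {D : Divisor K F} (hD : 0 ≤ D) :
    0 ≤ Divisor.pullbackAlong φ hφ D := by
  intro w
  rw [Divisor.pullbackAlong_apply]
  exact mul_nonneg (Int.natCast_nonneg _) (hD _)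

theorem pushforwardAlong_nonneg (φ : F →ₐ[K] F') (hφ : φ.toRingHom.IsIntegral)
    {D : Divisor K F'} (hD : 0 ≤ D) : 0 ≤ Divisor.pushforwardAlong φ hφ D := by
  classical
  intro v
  let _ := algebraAlong φ
  have := isScalarTower_along φ
  have := isIntegral_along φ hφ
  show (0 : ℤ) ≤ Divisor.pushforward F D v
  rw [Divisor.pushforward_apply]
  refine Finset.sum_nonneg fun w _ => ?_
  split_ifs
  · exact mul_nonneg (hD w) (Int.natCast_nonneg _)
  · exact le_rfl

theorem semilinear_smul_nonneg (g : SemilinearAut K F) {D : Divisor K F} (hD : 0 ≤ D) :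
    0 ≤ g • D := by
  intro w
  rw [SemilinearAut.divisor_smul_apply]
  exact hD _

theorem mem_support_semilinear_smul (g : SemilinearAut K F) {D : Divisor K F} {w : Place K F} :
    w ∈ (g • D).support ↔ g⁻¹ • w ∈ D.support := by
  rw [Finsupp.mem_support_iff, Finsupp.mem_support_iff, SemilinearAut.divisor_smul_apply]

end Effectivity

section HeckeAll

variable {L : Type*} [Field L] [Algebra ℚ L]
variable {k : Type*} [Field k]
variable {N ℓ : ℕ} [NeZero N] [hℓ : Fact ℓ.Prime] [CharP k ℓ] [PerfectRing k ℓ]
variable (hα : HeckeAlphaBarIntegral L N ℓ) (hβ : HeckeBetaBarIntegral L N ℓ)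
variable [HasPrincipalDivisors L (laurentBaseChange L (modularFunctionFieldFull (N * ℓ)))]
variable {r : Place L (laurentBaseChange L (modularFunctionFieldFull N)) →
  Place k (modularFunctionFieldFullC k N)}

theorem heckeDivBar_nonneg {D : Divisor L (laurentBaseChange L (modularFunctionFieldFull N))}
    (hD : 0 ≤ D) : 0 ≤ heckeDivBar hα hβ D :=
  pushforwardAlong_nonneg _ hα (pullbackAlong_nonneg _ hβ hD)

/-- The endomorphism `Frob + ℓ Frob⁻¹` of the divisor group of the mod-`ℓ` function field. -/
def frobPsi (k : Type*) [Field k] (N ℓ : ℕ) [Fact ℓ.Prime] [CharP k ℓ] [PerfectRing k ℓ] :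
    Divisor k (modularFunctionFieldFullC k N) →+ Divisor k (modularFunctionFieldFullC k N) :=
  DistribSMul.toAddMonoidHom (Divisor k (modularFunctionFieldFullC k N)) (frobC k N ℓ) +
    (ℓ : ℤ) • DistribSMul.toAddMonoidHom (Divisor k (modularFunctionFieldFullC k N))
      (frobC k N ℓ)⁻¹

omit [NeZero N] in
theorem frobPsi_apply (D : Divisor k (modularFunctionFieldFullC k N)) :
    frobPsi k N ℓ D = frobC k N ℓ • D + (ℓ : ℤ) • ((frobC k N ℓ)⁻¹ • D) := rfl

omit [NeZero N] in
theorem frobPsi_nonneg {D : Divisor k (modularFunctionFieldFullC k N)} (hD : 0 ≤ D) :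
    0 ≤ frobPsi k N ℓ D := by
  rw [frobPsi_apply]
  intro w
  have h1 := semilinear_smul_nonneg (frobC k N ℓ) hD w
  have h2 := semilinear_smul_nonneg (frobC k N ℓ)⁻¹ hD w
  simp only [Finsupp.add_apply, Finsupp.smul_apply, Finsupp.zero_apply, smul_eq_mul] at *
  have : (0 : ℤ) ≤ ℓ := Int.natCast_nonneg _
  nlinarith

open Classical in
/-- The set of places to avoid for `frobPsi`. -/
def frobBad (k : Type*) [Field k] (N ℓ : ℕ) [Fact ℓ.Prime] [CharP k ℓ] [PerfectRing k ℓ]
    (B : Finset (Place k (modularFunctionFieldFullC k N))) :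
    Finset (Place k (modularFunctionFieldFullC k N)) :=
  B.image (fun Q => (frobC k N ℓ)⁻¹ • Q) ∪ B.image (fun Q => frobC k N ℓ • Q)

omit [NeZero N] in
theorem frobPsi_disjoint (B : Finset (Place k (modularFunctionFieldFullC k N)))
    (D : Divisor k (modularFunctionFieldFullC k N)) (_hD : 0 ≤ D)
    (hdisj : Disjoint D.support (frobBad k N ℓ B)) : Disjoint (frobPsi k N ℓ D).support B := by
  classical
  rw [Finset.disjoint_left]
  intro Q hQ hQB
  rw [Finsupp.mem_support_iff, frobPsi_apply, Finsupp.add_apply, Finsupp.smul_apply] at hQ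
  by_cases h1 : (frobC k N ℓ • D) Q = 0
  · have h2 : ((frobC k N ℓ)⁻¹ • D) Q ≠ 0 := by
      intro h2
      apply hQ
      rw [h1, h2, smul_zero, add_zero]
    have h3 : (frobC k N ℓ)⁻¹⁻¹ • Q ∈ D.support :=
      (mem_support_semilinear_smul _).mp (Finsupp.mem_support_iff.mpr h2)
    rw [inv_inv] at h3
    exact (Finset.disjoint_left.mp hdisj) h3
      (Finset.mem_union_right _ (Finset.mem_image_of_mem _ hQB))
  · have h3 : (frobC k N ℓ)⁻¹ • Q ∈ D.support :=
      (mem_support_semilinear_smul _).mp (Finsupp.mem_support_iff.mpr h1)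
    exact (Finset.disjoint_left.mp hdisj) h3
      (Finset.mem_union_left _ (Finset.mem_image_of_mem _ hQB))

variable {S : Set (laurentBaseChange L (modularFunctionFieldFull N))}
  {res : laurentBaseChange L (modularFunctionFieldFull N) → modularFunctionFieldFullC k N}

/-- **Eichler–Shimura congruence at a place** from a moving hypothesis at that place. -/
theorem mapDomain_heckeDivBar_single_of_moving (hdr : DivRed r S res)
    (hFI : FundamentalIdentityAlong L (heckeBetaBar L N ℓ) hβ)
    (hfin : FiniteAlong L (heckeAlphaBar L N ℓ))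
    (hN : NormFormulaAlong L (heckeAlphaBar L N ℓ) hfin)
    (hnorm : ∀ Y ∈ S, normAlpha (heckeBetaBar L N ℓ Y) ∈ S ∧
      ((res (normAlpha (heckeBetaBar L N ℓ Y)) : modularFunctionFieldFullC k N) :
          LaurentSeries k) =
        qExpand k ℓ ((res Y : modularFunctionFieldFullC k N) : LaurentSeries k) *
          coeffMap (frobenius k ℓ) ((res Y : modularFunctionFieldFullC k N) : LaurentSeries k))
    (hrdeg : ∀ P, (r P).deg = P.deg)
    (hdegk : ∀ Q : Place k (modularFunctionFieldFullC k N), 0 < Q.deg)
    (hfr : finrankAlong L (heckeBetaBar L N ℓ) = ℓ + 1)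
    (P : Place L (laurentBaseChange L (modularFunctionFieldFull N)))
    (hmove : ∀ B : Finset (Place k (modularFunctionFieldFullC k N)),
      ∃ R Z : Divisor L (laurentBaseChange L (modularFunctionFieldFull N)), 0 ≤ R ∧ 0 ≤ Z ∧
        (Finsupp.single P 1 + R - Z) ∈ Divisor.principal (K := L)
          (F := laurentBaseChange L (modularFunctionFieldFull N)) ∧
        Finsupp.mapDomain r (heckeDivBar hα hβ Z) = frobPsi k N ℓ (Finsupp.mapDomain r Z) ∧
        Disjoint (Finsupp.mapDomain r R).support B) :
    Finsupp.mapDomain r (heckeDivBar hα hβ (Finsupp.single P 1)) =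
      frobPsi k N ℓ (Finsupp.mapDomain r (Finsupp.single P 1)) := by
  refine eq_of_moving r (heckeDivBar hα hβ) (frobPsi k N ℓ)
    (fun D hD => heckeDivBar_nonneg hα hβ hD) (fun D hD => frobPsi_nonneg hD)
    (frobBad k N ℓ) frobPsi_disjoint hdegk P ?_ ?_
  · -- degrees
    have h1 : Divisor.degree (heckeDivBar hα hβ (Finsupp.single P 1)) =
        (finrankAlong L (heckeBetaBar L N ℓ) : ℤ) * Divisor.degree
          (Finsupp.single P (1 : ℤ) :
            Divisor L (laurentBaseChange L (modularFunctionFieldFull N))) :=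
      Divisor.degree_correspondence (heckeBetaBar L N ℓ) (heckeAlphaBar L N ℓ) hβ hα hFI _
    rw [degree_mapDomain_of_deg_eq hrdeg, h1,
      hfr, frobPsi_apply, map_add, map_zsmul, SemilinearAut.degree_smul,
      SemilinearAut.degree_smul, degree_mapDomain_of_deg_eq hrdeg]
    simp only [smul_eq_mul]
    push_cast
    ring
  · intro B
    obtain ⟨R, Z, hR, hZ, hprin, hZeq, hdisj⟩ := hmove B
    refine ⟨R, Z, hR, hZ, ?_, hZeq, hdisj⟩
    have hprin' : (1 : ℤ) • (Finsupp.single P 1 + R - Z) ∈ Divisor.principal (K := L)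
        (F := laurentBaseChange L (modularFunctionFieldFull N)) := by
      rwa [one_smul]
    exact mapDomain_heckeDivBar_of_torsion hα hβ hdr hfin hN hnorm one_ne_zero hprin'

/-- If the congruence holds at every place, it holds for every divisor. -/
theorem mapDomain_heckeDivBar_of_single
    (h : ∀ P, Finsupp.mapDomain r (heckeDivBar hα hβ (Finsupp.single P 1)) =
      frobPsi k N ℓ (Finsupp.mapDomain r (Finsupp.single P 1)))
    (D : Divisor L (laurentBaseChange L (modularFunctionFieldFull N))) :
    Finsupp.mapDomain r (heckeDivBar hα hβ D) = frobPsi k N ℓ (Finsupp.mapDomain r D) := by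
  induction D using Finsupp.induction with
  | zero => simp
  | single_add P n D _ _ ih =>
    have hs : (Finsupp.single P n : Divisor L (laurentBaseChange L (modularFunctionFieldFull N)))
        = n • Finsupp.single P (1 : ℤ) := by
      rw [Finsupp.smul_single, smul_eq_mul, mul_one]
    rw [map_add, Finsupp.mapDomain_add, Finsupp.mapDomain_add, map_add, ih, hs, map_zsmul,
      Finsupp.mapDomain_smul, Finsupp.mapDomain_smul, map_zsmul, h P]

end HeckeAll

end Fermat.Agent.Gateway.ES
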