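import Mathlib
import Fermat.Agent.Gateway.ES.AllClasses

/-!
# Galois equivariance for all divisors, and the `Pic0`-level statements for all classes
-/

set_option autoImplicit false

noncomputable section

namespace Fermat.Agent.Gateway.ES

open ModularCurve HahnSeries AlgebraicCurve IntermediateField

section GaloisAll

variable {L : Type*} [Field L] [Algebra ℚ L]
variable {k : Type*} [Field k]
variable {N : ℕ}
variable {r : Place L (laurentBaseChange L (modularFunctionFieldFull N)) →
  Place k (modularFunctionFieldFullC k N)}
variable {S : Set (laurentBaseChange L (modularFunctionFieldFull N))}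
  {res : laurentBaseChange L (modularFunctionFieldFull N) → modularFunctionFieldFullC k N}

open Classical in
/-- The set of places to avoid for the action of `τ`. -/
def galBad (k : Type*) [Field k] (N : ℕ) (τ : k ≃+* k)
    (B : Finset (Place k (modularFunctionFieldFullC k N))) :
    Finset (Place k (modularFunctionFieldFullC k N)) :=
  B.image (fun Q => (coeffGaloisC k N τ)⁻¹ • Q)

theorem galois_smul_disjoint (τ : k ≃+* k) (B : Finset (Place k (modularFunctionFieldFullC k N)))
    (D : Divisor k (modularFunctionFieldFullC k N)) (_hD : 0 ≤ D)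
    (hdisj : Disjoint D.support (galBad k N τ B)) :
    Disjoint (coeffGaloisC k N τ • D).support B := by
  classical
  rw [Finset.disjoint_left]
  intro Q hQ hQB
  have h3 : (coeffGaloisC k N τ)⁻¹ • Q ∈ D.support :=
    (mem_support_semilinear_smul (coeffGaloisC k N τ)).mp hQ
  exact (Finset.disjoint_left.mp hdisj) h3 (Finset.mem_image_of_mem _ hQB)

set_option maxHeartbeats 1600000 in
/-- **Galois equivariance of the reduction at a place** from a moving hypothesis at that place. -/
theorem mapDomain_galois_smul_single_of_moving (hdr : DivRed r S res) (σ : L ≃ₐ[ℚ] L)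
    (τ : k ≃+* k)
    (hσ : ∀ Y ∈ S, arithmeticGalois (modularFunctionFieldFull N) σ • Y ∈ S ∧
      res (arithmeticGalois (modularFunctionFieldFull N) σ • Y) = coeffGaloisC k N τ • res Y)
    (hrdeg : ∀ P, (r P).deg = P.deg)
    (hdegk : ∀ Q : Place k (modularFunctionFieldFullC k N), 0 < Q.deg)
    (P : Place L (laurentBaseChange L (modularFunctionFieldFull N)))
    (hmove : ∀ B : Finset (Place k (modularFunctionFieldFullC k N)),
      ∃ R Z : Divisor L (laurentBaseChange L (modularFunctionFieldFull N)), 0 ≤ R ∧ 0 ≤ Z ∧
        (Finsupp.single P 1 + R - Z) ∈ Divisor.principal (K := L)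
          (F := laurentBaseChange L (modularFunctionFieldFull N)) ∧
        Finsupp.mapDomain r (arithmeticGalois (modularFunctionFieldFull N) σ • Z) =
          coeffGaloisC k N τ • Finsupp.mapDomain r Z ∧
        Disjoint (Finsupp.mapDomain r R).support B) :
    Finsupp.mapDomain r (arithmeticGalois (modularFunctionFieldFull N) σ • (Finsupp.single P (1 : ℤ) : Divisor L (laurentBaseChange L (modularFunctionFieldFull N)))) =
      coeffGaloisC k N τ • Finsupp.mapDomain r (Finsupp.single P (1 : ℤ) : Divisor L (laurentBaseChange L (modularFunctionFieldFull N))) := by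
  have hdeg : Divisor.degree (Finsupp.mapDomain r
        (arithmeticGalois (modularFunctionFieldFull N) σ • (Finsupp.single P (1 : ℤ) :
          Divisor L (laurentBaseChange L (modularFunctionFieldFull N))))) =
      Divisor.degree (coeffGaloisC k N τ • Finsupp.mapDomain r (Finsupp.single P (1 : ℤ) :
          Divisor L (laurentBaseChange L (modularFunctionFieldFull N)))) := by
    exact ((degree_mapDomain_of_deg_eq hrdeg _).trans (SemilinearAut.degree_smul _ _)).trans
      ((SemilinearAut.degree_smul _ _).trans (degree_mapDomain_of_deg_eq hrdeg _)).symm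
  have hmove' : ∀ B : Finset (Place k (modularFunctionFieldFullC k N)),
      ∃ R Z : Divisor L (laurentBaseChange L (modularFunctionFieldFull N)), 0 ≤ R ∧ 0 ≤ Z ∧
        Finsupp.mapDomain r (arithmeticGalois (modularFunctionFieldFull N) σ •
            (Finsupp.single P (1 : ℤ) + R - Z :
              Divisor L (laurentBaseChange L (modularFunctionFieldFull N)))) =
          coeffGaloisC k N τ • Finsupp.mapDomain r (Finsupp.single P (1 : ℤ) + R - Z :
              Divisor L (laurentBaseChange L (modularFunctionFieldFull N))) ∧
        Finsupp.mapDomain r (arithmeticGalois (modularFunctionFieldFull N) σ • Z) =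
          coeffGaloisC k N τ • Finsupp.mapDomain r Z ∧
        Disjoint (Finsupp.mapDomain r R).support B := by
    intro B
    obtain ⟨R, Z, hR, hZ, hprin, hZeq, hdisj⟩ := hmove B
    refine ⟨R, Z, hR, hZ, ?_, hZeq, hdisj⟩
    have hprin' : (1 : ℤ) • (Finsupp.single P 1 + R - Z) ∈ Divisor.principal (K := L)
        (F := laurentBaseChange L (modularFunctionFieldFull N)) := by
      rwa [one_smul]
    exact mapDomain_galois_smul_of_torsion hdr σ τ hσ one_ne_zero hprin'
  exact eq_of_moving r
    (DistribSMul.toAddMonoidHom (Divisor L (laurentBaseChange L (modularFunctionFieldFull N)))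
      (arithmeticGalois (modularFunctionFieldFull N) σ))
    (DistribSMul.toAddMonoidHom (Divisor k (modularFunctionFieldFullC k N))
      (coeffGaloisC k N τ))
    (fun D hD => semilinear_smul_nonneg _ hD) (fun D hD => semilinear_smul_nonneg _ hD)
    (galBad k N τ) (galois_smul_disjoint τ) hdegk P hdeg hmove'

/-- If Galois equivariance holds at every place, it holds for every divisor. -/
theorem mapDomain_galois_smul_of_single (σ : L ≃ₐ[ℚ] L) (τ : k ≃+* k)
    (h : ∀ P, Finsupp.mapDomain r
        (arithmeticGalois (modularFunctionFieldFull N) σ • (Finsupp.single P (1 : ℤ) : Divisor L (laurentBaseChange L (modularFunctionFieldFull N)))) =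
      coeffGaloisC k N τ • Finsupp.mapDomain r (Finsupp.single P (1 : ℤ) : Divisor L (laurentBaseChange L (modularFunctionFieldFull N))))
    (D : Divisor L (laurentBaseChange L (modularFunctionFieldFull N))) :
    Finsupp.mapDomain r (arithmeticGalois (modularFunctionFieldFull N) σ • D) =
      coeffGaloisC k N τ • Finsupp.mapDomain r D := by
  have key : (Finsupp.mapDomain.addMonoidHom r).comp
      (DistribSMul.toAddMonoidHom (Divisor L (laurentBaseChange L (modularFunctionFieldFull N)))
        (arithmeticGalois (modularFunctionFieldFull N) σ)) =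
      (DistribSMul.toAddMonoidHom (Divisor k (modularFunctionFieldFullC k N))
        (coeffGaloisC k N τ)).comp (Finsupp.mapDomain.addMonoidHom r) := by
    refine Finsupp.addHom_ext fun P n => ?_
    have hs : (Finsupp.single P n : Divisor L (laurentBaseChange L (modularFunctionFieldFull N)))
        = n • Finsupp.single P (1 : ℤ) := by
      rw [Finsupp.smul_single, smul_eq_mul, mul_one]
    rw [hs, map_zsmul, map_zsmul]
    exact congrArg (n • ·) (h P)
  exact DFunLike.congr_fun key D

end GaloisAll

section Pic0All

variable {L : Type*} [Field L] [Algebra ℚ L] {A : ValuationSubring L}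
variable {k : Type*} [Field k] {π : A →+* k}
variable {N ℓ : ℕ} [NeZero N] [hℓ : Fact ℓ.Prime] [CharP k ℓ] [PerfectRing k ℓ]
variable (hα : HeckeAlphaBarIntegral L N ℓ) (hβ : HeckeBetaBarIntegral L N ℓ)
variable [HasPrincipalDivisors L (laurentBaseChange L (modularFunctionFieldFull (N * ℓ)))]

/-- The Eichler–Shimura congruence for `reductionAlong` on ALL classes, from the divisor-level
identity for the chosen reduction of places. -/
theorem reductionAlong_hecke_of_divisor
    (hFI : FundamentalIdentityAlong L (heckeBetaBar L N ℓ) hβ)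
    (hfin : FiniteAlong L (heckeAlphaBar L N ℓ))
    (hN : NormFormulaAlong L (heckeAlphaBar L N ℓ) hfin)
    (h : ReductionInputsAlong A π N)
    (hdiv : ∀ D, Finsupp.mapDomain h.choose (heckeDivBar hα hβ D) =
      frobPsi k N ℓ (Finsupp.mapDomain h.choose D))
    (x : Pic0 L (laurentBaseChange L (modularFunctionFieldFull N))) :
    reductionAlong A π N (heckePic0Bar hα hβ hFI hfin hN x) =
      frobC k N ℓ • reductionAlong A π N x +
        (ℓ : ℤ) • ((frobC k N ℓ)⁻¹ • reductionAlong A π N x) := by
  obtain ⟨D, rfl⟩ := Pic0.mk_surjective x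
  have h1 : heckePic0Bar hα hβ hFI hfin hN (Pic0.mk D) =
      Pic0.mk (Pic0.degZeroCorrespondence (heckeBetaBar L N ℓ) (heckeAlphaBar L N ℓ) hβ hα hFI D) :=
    rfl
  rw [h1, reductionAlong_mk h, reductionAlong_mk h, SemilinearAut.pic0_smul_mk,
    SemilinearAut.pic0_smul_mk]
  refine (congrArg Pic0.mk (Subtype.ext ?_) :
    Pic0.mk _ = Pic0.mk (SemilinearAut.degZeroSMulHom (frobC k N ℓ) _ +
      (ℓ : ℤ) • SemilinearAut.degZeroSMulHom (frobC k N ℓ)⁻¹ _))
  exact hdiv D

omit [NeZero N] in
/-- Galois equivariance of `reductionAlong` on ALL classes, from the divisor-level identity. -/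
theorem reductionAlong_galois_smul_of_divisor (h : ReductionInputsAlong A π N)
    (σ : L ≃ₐ[ℚ] L) (τ : k ≃+* k)
    (hdiv : ∀ D : Divisor L (laurentBaseChange L (modularFunctionFieldFull N)),
      Finsupp.mapDomain h.choose
        (arithmeticGalois (modularFunctionFieldFull N) σ • D) =
      coeffGaloisC k N τ • Finsupp.mapDomain h.choose D)
    (x : Pic0 L (laurentBaseChange L (modularFunctionFieldFull N))) :
    reductionAlong A π N (σ • x) = coeffGaloisC k N τ • reductionAlong A π N x := by
  obtain ⟨D, rfl⟩ := Pic0.mk_surjective x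
  rw [galois_smul_pic0_def, SemilinearAut.pic0_smul_mk, reductionAlong_mk h,
    reductionAlong_mk h, SemilinearAut.pic0_smul_mk]
  exact congrArg Pic0.mk (Subtype.ext (hdiv D))

end Pic0All

end Fermat.Agent.Gateway.ES
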