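import Mathlib
import Fermat.Prelude.Def_AlgebraicCurve_Repartitions
import Fermat.Agent.Gateway.ES.Moving

/-!
# From principal divisors to all divisors: the boundedness argument

Let `F / K` be a function field all of whose places have degree one and in which every divisor
of degree `≥ g` is linearly equivalent to an effective divisor (Riemann's inequality).  An
additive function `lam : Divisor K F →+ ℤ` which kills principal divisors and is bounded on
places kills every divisor of degree zero:  for `D` of degree zero and `n : ℕ` the divisor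
`n D + g P₀` is equivalent to an effective `E` of degree `g`, so
`n * lam D = lam E - g * lam P₀` is bounded independently of `n`.

Consequently two effectivity-preserving correspondences `r_* ∘ T` and `Ψ ∘ r_*` of the same degree
which agree on principal divisors agree on ALL divisors as soon as the map of places `r` takes
enough values.  No moving lemma, no divisibility of the class group is needed.
-/

set_option autoImplicit false

noncomputable section

namespace Fermat.Agent.Gateway.ES

open AlgebraicCurve

section Abstract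

variable {K F : Type*} [Field K] [Field F] [Algebra K F]

theorem degree_eq_zero_of_mem_principal [HasPrincipalDivisors K F] {D : Divisor K F}
    (hD : D ∈ Divisor.principal (K := K) (F := F)) : Divisor.degree D = 0 := by
  obtain ⟨f, hf, hDf⟩ := hD
  obtain ⟨D', hD', hdeg⟩ := HasPrincipalDivisors.exists_divisor (K := K) f hf
  have : D = D' := Finsupp.ext fun v => (hDf v).trans (hD' v).symm
  rw [this, hdeg]

variable (K F) in
/-- Every divisor of degree `≥ g` is linearly equivalent to an effective divisor. -/
def EffectiveBound (g : ℕ) : Prop :=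
  ∀ D : Divisor K F, (g : ℤ) ≤ Divisor.degree D →
    ∃ E : Divisor K F, 0 ≤ E ∧ E - D ∈ Divisor.principal (K := K) (F := F)

/-- Riemann's inequality gives `EffectiveBound`. -/
theorem effectiveBound_of_riemann [HasPrincipalDivisors K F] (g : ℕ)
    (h : ∀ D : Divisor K F,
      Divisor.degree D + 1 - (g : ℤ) ≤ (Module.finrank K (riemannRochSpace D) : ℤ)) :
    EffectiveBound K F g := by
  intro D hD
  have h1 : 0 < Module.finrank K (riemannRochSpace D) := by
    have := h D
    omega
  obtain ⟨f, hf⟩ : ∃ f : riemannRochSpace D, f ≠ 0 := by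
    by_contra hne
    push Not at hne
    have : Subsingleton (riemannRochSpace D) := ⟨fun a b => (hne a).trans (hne b).symm⟩
    rw [Module.finrank_zero_of_subsingleton] at h1
    exact lt_irrefl _ h1
  have hf0 : (f : F) ≠ 0 := fun h0 => hf (Subtype.ext h0)
  obtain ⟨D', hD', -⟩ := HasPrincipalDivisors.exists_divisor (K := K) (f : F) hf0
  refine ⟨D + D', ?_, ?_⟩
  · intro v
    have := (mem_riemannRochSpace_iff.mp f.2 v).resolve_left hf0
    rw [Finsupp.add_apply, hD' v, Finsupp.zero_apply]
    linarith
  · rw [add_sub_cancel_left]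
    exact ⟨f, hf0, hD'⟩

theorem single_one_nonneg (P : Place K F) : (0 : Divisor K F) ≤ Finsupp.single P 1 := by
  classical
  intro Q
  rw [Finsupp.single_apply]
  split_ifs <;> simp

/-- An additive function bounded by `C` on places is bounded by `C * deg` on effective
divisors. -/
theorem abs_le_mul_degree_of_nonneg (hdeg : ∀ P : Place K F, P.deg = 1)
    (lam : Divisor K F →+ ℤ) (C : ℤ) (hC : ∀ P, |lam (Finsupp.single P 1)| ≤ C) :
    ∀ E : Divisor K F, 0 ≤ E → |lam E| ≤ C * Divisor.degree E := by
  classical
  intro E
  induction E using Finsupp.induction with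
  | zero => intro _; simp
  | single_add P n E hP hn ih =>
    intro hE
    have hEP : E P = 0 := Finsupp.notMem_support_iff.mp hP
    have hn0 : 0 ≤ n := by
      have := hE P
      rw [Finsupp.add_apply, Finsupp.single_eq_same, hEP, add_zero, Finsupp.zero_apply] at this
      exact this
    have hE0 : 0 ≤ E := by
      intro Q
      by_cases hQ : Q = P
      · subst hQ
        rw [hEP, Finsupp.zero_apply]
      · have := hE Q
        rw [Finsupp.add_apply, Finsupp.single_apply, if_neg (Ne.symm hQ), zero_add] at this
        exact this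
    have hs : lam (Finsupp.single P n) = n * lam (Finsupp.single P 1) := by
      have : (Finsupp.single P n : Divisor K F) = n • Finsupp.single P (1 : ℤ) := by
        rw [Finsupp.smul_single, smul_eq_mul, mul_one]
      rw [this, map_zsmul, smul_eq_mul]
    rw [map_add, map_add, Divisor.degree_single, hdeg, hs]
    have h1 := ih hE0
    have h2 := hC P
    have h3 : |n * lam (Finsupp.single P 1)| ≤ n * C := by
      rw [abs_mul, abs_of_nonneg hn0]
      exact mul_le_mul_of_nonneg_left h2 hn0
    calc |n * lam (Finsupp.single P 1) + lam E|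
        ≤ |n * lam (Finsupp.single P 1)| + |lam E| := abs_add_le _ _
      _ ≤ n * C + C * Divisor.degree E := add_le_add h3 h1
      _ = C * (n * ((1 : ℕ) : ℤ) + Divisor.degree E) := by push_cast; ring

/-- **Boundedness argument** (scalar form). -/
theorem eq_zero_of_bounded [HasPrincipalDivisors K F] (hdeg : ∀ P : Place K F, P.deg = 1)
    {g : ℕ} (hR : EffectiveBound K F g) (lam : Divisor K F →+ ℤ)
    (hprin : ∀ D ∈ Divisor.principal (K := K) (F := F), lam D = 0)
    (C : ℤ) (hC : ∀ P : Place K F, |lam (Finsupp.single P 1)| ≤ C)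
    (D : Divisor K F) (hD : Divisor.degree D = 0) : lam D = 0 := by
  classical
  by_contra hne
  have hD0 : D ≠ 0 := fun h => hne (by rw [h, map_zero])
  obtain ⟨P0, -⟩ := Finsupp.support_nonempty_iff.mpr hD0
  have hC0 : 0 ≤ C := (abs_nonneg _).trans (hC P0)
  set n : ℕ := (2 * g * C).toNat + 1 with hn
  set Dn : Divisor K F := n • D + g • Finsupp.single P0 (1 : ℤ) with hDn
  have hdegDn : Divisor.degree Dn = g := by
    rw [hDn, map_add, map_nsmul, map_nsmul, hD, Divisor.degree_single, hdeg]
    simp
  obtain ⟨E, hE0, hEprin⟩ := hR Dn (by rw [hdegDn])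
  have hdegE : Divisor.degree E = g := by
    have := degree_eq_zero_of_mem_principal hEprin
    rw [map_sub, hdegDn] at this
    linarith
  have hlamE : lam E = n * lam D + g * lam (Finsupp.single P0 1) := by
    have := hprin _ hEprin
    rw [map_sub, sub_eq_zero] at this
    rw [this, hDn, map_add, map_nsmul, map_nsmul]
    simp
  have hb1 := abs_le_mul_degree_of_nonneg hdeg lam C hC E hE0
  rw [hdegE] at hb1
  have hb2 := hC P0
  have hg0 : (0 : ℤ) ≤ g := Int.natCast_nonneg g
  have hn0 : (0 : ℤ) ≤ n := Int.natCast_nonneg n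
  have h1 : (n : ℤ) * |lam D| ≤ 2 * g * C := by
    have e : (n : ℤ) * lam D = lam E - g * lam (Finsupp.single P0 1) := by rw [hlamE]; ring
    calc (n : ℤ) * |lam D| = |(n : ℤ) * lam D| := by rw [abs_mul, abs_of_nonneg hn0]
      _ = |lam E - g * lam (Finsupp.single P0 1)| := by rw [e]
      _ ≤ |lam E| + |(g : ℤ) * lam (Finsupp.single P0 1)| := abs_sub _ _
      _ ≤ C * g + g * C := by
          rw [abs_mul, abs_of_nonneg hg0]
          exact add_le_add hb1 (mul_le_mul_of_nonneg_left hb2 hg0)
      _ = 2 * g * C := by ring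
  have h2 : 1 ≤ |lam D| := Int.one_le_abs hne
  have h4 : ((2 * g * C).toNat : ℤ) = 2 * g * C :=
    Int.toNat_of_nonneg (mul_nonneg (mul_nonneg (by norm_num) hg0) hC0)
  have h3 : (n : ℤ) = 2 * g * C + 1 := by rw [hn]; push_cast; rw [h4]
  nlinarith

/-- **Boundedness argument** (finitely supported functions as values). -/
theorem eq_zero_of_bounded_finsupp {X : Type*} [HasPrincipalDivisors K F]
    (hdeg : ∀ P : Place K F, P.deg = 1) {g : ℕ} (hR : EffectiveBound K F g)
    (Δ : Divisor K F →+ (X →₀ ℤ))
    (hprin : ∀ D ∈ Divisor.principal (K := K) (F := F), Δ D = 0)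
    (C : ℤ) (hC : ∀ (P : Place K F) (Q : X), |Δ (Finsupp.single P 1) Q| ≤ C)
    (D : Divisor K F) (hD : Divisor.degree D = 0) : Δ D = 0 := by
  ext Q
  exact eq_zero_of_bounded hdeg hR ((Finsupp.applyAddHom Q).comp Δ)
    (fun D hD => by
      rw [AddMonoidHom.comp_apply, hprin D hD]
      rfl) C (fun P => hC P Q) D hD

end Abstract

section Correspondence

variable {K F K' F' : Type*} [Field K] [Field F] [Algebra K F] [Field K'] [Field F']
  [Algebra K' F']

/-- A value of an effective divisor is bounded by its degree (all places of degree one). -/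
theorem apply_le_degree_of_nonneg (hdeg' : ∀ Q : Place K' F', Q.deg = 1) {E : Divisor K' F'}
    (hE : 0 ≤ E) (Q : Place K' F') : E Q ≤ Divisor.degree E := by
  classical
  have hsum : Divisor.degree E = ∑ Q' ∈ E.support, E Q' := by
    rw [Divisor.degree, Finsupp.liftAddHom_apply, Finsupp.sum]
    refine Finset.sum_congr rfl fun Q' _ => ?_
    show E Q' * (Q'.deg : ℤ) = E Q'
    rw [hdeg' Q']
    simp
  rw [hsum]
  by_cases hQ : Q ∈ E.support
  · exact Finset.single_le_sum (f := fun Q' => E Q') (fun Q' _ => hE Q') hQ
  · rw [Finsupp.notMem_support_iff.mp hQ]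
    exact Finset.sum_nonneg fun Q' _ => hE Q'

theorem degree_mapDomain_eq (r : Place K F → Place K' F') (hrdeg : ∀ P, (r P).deg = P.deg)
    (D : Divisor K F) : Divisor.degree (Finsupp.mapDomain r D) = Divisor.degree D := by
  induction D using Finsupp.induction with
  | zero => simp
  | single_add P n D _ _ ih =>
    rw [Finsupp.mapDomain_add, map_add, map_add, ih, Finsupp.mapDomain_single,
      Divisor.degree_single, Divisor.degree_single, hrdeg]

/-- **From principal divisors to all divisors.**  Two effectivity-preserving correspondences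
`r_* ∘ T` and `Ψ ∘ r_*` of the same degree `d` which agree on principal divisors agree on all
divisors, provided every place `Q₀` of the target is missed by `Ψ (r P)` for some place `P`. -/
theorem eq_of_bounded [HasPrincipalDivisors K F] (r : Place K F → Place K' F')
    (T : Divisor K F →+ Divisor K F) (Ψ : Divisor K' F' →+ Divisor K' F')
    (hT : ∀ D, 0 ≤ D → 0 ≤ T D) (hΨ : ∀ D, 0 ≤ D → 0 ≤ Ψ D)
    (hdeg : ∀ P : Place K F, P.deg = 1) (hdeg' : ∀ Q : Place K' F', Q.deg = 1)
    {g : ℕ} (hR : EffectiveBound K F g) (d : ℤ)
    (hTdeg : ∀ D, Divisor.degree (T D) = d * Divisor.degree D)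
    (hΨdeg : ∀ D, Divisor.degree (Ψ D) = d * Divisor.degree D)
    (hprin : ∀ D ∈ Divisor.principal (K := K) (F := F),
      Finsupp.mapDomain r (T D) = Ψ (Finsupp.mapDomain r D))
    (hmiss : ∀ Q0 : Place K' F', ∃ P : Place K F, (Ψ (Finsupp.single (r P) 1)) Q0 = 0)
    (D : Divisor K F) :
    Finsupp.mapDomain r (T D) = Ψ (Finsupp.mapDomain r D) := by
  classical
  have hrdeg : ∀ P, (r P).deg = P.deg := fun P => by rw [hdeg, hdeg']
  set Δ : Divisor K F →+ Divisor K' F' :=
    (Finsupp.mapDomain.addMonoidHom r).comp T - Ψ.comp (Finsupp.mapDomain.addMonoidHom r) with hΔ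
  have hΔapp : ∀ D, Δ D = Finsupp.mapDomain r (T D) - Ψ (Finsupp.mapDomain r D) := fun D => rfl
  -- values at a place
  have hE1 : ∀ P, 0 ≤ Finsupp.mapDomain r (T (Finsupp.single P 1)) := fun P =>
    mapDomain_nonneg r (hT _ (single_one_nonneg P))
  have hE2 : ∀ P, 0 ≤ Ψ (Finsupp.mapDomain r (Finsupp.single P (1 : ℤ))) := fun P =>
    hΨ _ (mapDomain_nonneg r (single_one_nonneg P))
  have hd1 : ∀ P, Divisor.degree (Finsupp.mapDomain r (T (Finsupp.single P 1))) = d := fun P => by
    rw [degree_mapDomain_eq r hrdeg, hTdeg, Divisor.degree_single, hdeg]; simp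
  have hd2 : ∀ P, Divisor.degree (Ψ (Finsupp.mapDomain r (Finsupp.single P (1 : ℤ)))) = d :=
    fun P => by
      rw [hΨdeg, degree_mapDomain_eq r hrdeg, Divisor.degree_single, hdeg]; simp
  -- Δ kills degree zero divisors
  have hkill : ∀ D, Divisor.degree D = 0 → Δ D = 0 := by
    refine eq_zero_of_bounded_finsupp hdeg hR Δ (fun D hD => ?_) d (fun P Q => ?_)
    · rw [hΔapp, hprin D hD, sub_self]
    · rw [hΔapp, Finsupp.sub_apply]
      have a1 := hE1 P Q
      have a2 := apply_le_degree_of_nonneg hdeg' (hE1 P) Q
      have b1 := hE2 P Q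
      have b2 := apply_le_degree_of_nonneg hdeg' (hE2 P) Q
      rw [hd1] at a2
      rw [hd2] at b2
      rw [Finsupp.zero_apply] at a1 b1
      rw [abs_le]
      constructor <;> linarith
  -- the value of Δ at a place does not depend on the place
  have hconst : ∀ P P0, Δ (Finsupp.single P 1) = Δ (Finsupp.single P0 1) := by
    intro P P0
    have := hkill (Finsupp.single P 1 - Finsupp.single P0 1) (by
      rw [map_sub, Divisor.degree_single, Divisor.degree_single, hdeg, hdeg, sub_self])
    rw [map_sub, sub_eq_zero] at this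
    exact this
  -- and it vanishes
  have hzero : ∀ P, Δ (Finsupp.single P 1) = 0 := by
    intro P0
    set δ := Δ (Finsupp.single P0 1) with hδ
    have hδdeg : Divisor.degree δ = 0 := by
      rw [hδ, hΔapp, map_sub, hd1, hd2, sub_self]
    have hδ0 : 0 ≤ δ := by
      intro Q0
      obtain ⟨P, hP⟩ := hmiss Q0
      have e : δ = Δ (Finsupp.single P 1) := hconst P0 P
      rw [e, hΔapp, Finsupp.sub_apply, Finsupp.mapDomain_single, hP, sub_zero]
      exact hE1 P Q0
    exact (eq_of_le_of_degree_eq (fun Q => by rw [hdeg' Q]; exact Nat.one_pos) hδ0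
      (by rw [map_zero, hδdeg])).symm
  -- conclude by additivity
  have hall : Δ = 0 := by
    refine Finsupp.addHom_ext fun P n => ?_
    have : (Finsupp.single P n : Divisor K F) = n • Finsupp.single P (1 : ℤ) := by
      rw [Finsupp.smul_single, smul_eq_mul, mul_one]
    rw [this, map_zsmul, hzero P, smul_zero, AddMonoidHom.zero_apply]
  have := DFunLike.congr_fun hall D
  rw [hΔapp, AddMonoidHom.zero_apply, sub_eq_zero] at this
  exact this

end Correspondence

end Fermat.Agent.Gateway.ES
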