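import Mathlib
import Fermat.Prelude.Def_FLTPrelim_Ramification

/-!
# The residue field of a valuation subring of an algebraically closed field

* `charP_residueField_of_liesOverPrime`: characteristic `ℓ` when `A` lies over `ℓ`;
* `isAlgClosed_residueField`: algebraically closed (hence perfect) when the ambient field is.
-/

set_option autoImplicit false

noncomputable section

namespace Fermat.Agent.Gateway.ES

open Polynomial

section

variable {L : Type*} [Field L] (A : ValuationSubring L)

theorem charP_residueField_of_liesOverPrime {ℓ : ℕ} [hℓ : Fact ℓ.Prime]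
    (h : A.LiesOverPrime ℓ) : CharP (IsLocalRing.ResidueField A) ℓ := by
  have h0 : ((ℓ : ℕ) : IsLocalRing.ResidueField A) = 0 := by
    have hmem : ((ℓ : ℕ) : A) ∈ IsLocalRing.maximalIdeal A := by
      rw [IsLocalRing.mem_maximalIdeal, mem_nonunits_iff]
      intro hu
      have h' : ((ℓ : ℕ) : L) ∈ A.nonunits := h
      rw [ValuationSubring.mem_nonunits_iff_exists_mem_maximalIdeal] at h'
      obtain ⟨ha, hm⟩ := h'
      rw [IsLocalRing.mem_maximalIdeal, mem_nonunits_iff] at hm
      apply hm
      convert hu using 1
      exact Subtype.ext (by simp)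
    have := (IsLocalRing.residue_eq_zero_iff _).mpr hmem
    rwa [map_natCast] at this
  exact (CharP.charP_iff_prime_eq_zero hℓ.out).mpr h0

theorem isAlgClosed_residueField [IsAlgClosed L] : IsAlgClosed (IsLocalRing.ResidueField A) := by
  refine IsAlgClosed.of_exists_root _ fun p hpm hpi => ?_
  obtain ⟨P, hPmap, hPdeg, hPmonic⟩ :=
    lifts_and_degree_eq_and_monic
      ((mem_lifts_of_surjective (f := IsLocalRing.residue A) IsLocalRing.residue_surjective) p) hpm
  have hdeg : (P.map (algebraMap A L)).degree ≠ 0 := by
    rw [hPmonic.degree_map, hPdeg]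
    exact (degree_pos_of_irreducible hpi).ne'
  obtain ⟨x, hx⟩ := IsAlgClosed.exists_root (P.map (algebraMap A L)) hdeg
  have hint : IsIntegral A x := ⟨P, hPmonic, by rwa [IsRoot.def, eval_map] at hx⟩
  obtain ⟨a, rfl⟩ := IsIntegrallyClosed.isIntegral_iff.mp hint
  refine ⟨IsLocalRing.residue A a, ?_⟩
  rw [← hPmap, eval_map, eval₂_hom]
  have : eval a P = 0 := by
    rw [IsRoot.def, eval_map, eval₂_hom] at hx
    exact (FaithfulSMul.algebraMap_injective A L) (by rw [hx, map_zero])
  rw [this, map_zero]

instance perfectRing_residueField [IsAlgClosed L] (ℓ : ℕ) [Fact ℓ.Prime]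
    [CharP (IsLocalRing.ResidueField A) ℓ] : PerfectRing (IsLocalRing.ResidueField A) ℓ := by
  have := isAlgClosed_residueField A
  infer_instance

end

end Fermat.Agent.Gateway.ES
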