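import Mathlib
import Fermat.Agent.Gateway.ES.Bounded
import Fermat.Agent.Gateway.ES.AllPic0
import Fermat.Agent.Gateway.ES.Pic0
import Fermat.Agent.Gateway.FkBasics.Modular
import Fermat.Agent.Gateway.GoodRed.GaussBarBasic
import Fermat.Agent.S24.ZP.PlaceBasics

/-!
# Eichler–Shimura congruence and Galois equivariance on ALL divisors, from the boundedness argument

Given a reduction of places `r` with the Prelude's `IsPlaceReductionAlong A π N r` and
`PrincipalGeneratedByIntegral A π N`, Riemann's inequality on the characteristic zero side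
(`EffectiveBound`) and the basic facts on the mod-`ℓ` function field (`FkBasics`), the
divisor-level identities

* `r_* (T_ℓ D) = Frob • r_* D + ℓ • Frob⁻¹ • r_* D`,
* `r_* (σ • D) = τ • r_* D`

hold for ALL divisors `D`.  The only geometric input beyond the torsion-level statements is that
`r` takes at least three values (zeros of `j`, `j - 1`, and a pole of `j`).
-/

set_option autoImplicit false

noncomputable section

namespace Fermat.Agent.Gateway.ES

open ModularCurve HahnSeries AlgebraicCurve IntermediateField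

section Values

variable {L : Type*} [Field L] [Algebra ℚ L] {A : ValuationSubring L}
variable {k : Type} [Field k] {π : A →+* k} {N : ℕ} [NeZero N]
variable {r : Place L (laurentBaseChange L (modularFunctionFieldFull N)) →
  Place k (modularFunctionFieldFullC k N)}

omit [NeZero N] in
/-- A place at which the reduction of an integral function has nonzero order is a value of
`r`. -/
theorem exists_eq_of_ord_ne_zero
    [HasPrincipalDivisors L (laurentBaseChange L (modularFunctionFieldFull N))]
    (hr : IsPlaceReductionAlong A π N r) (y : LaurentSeries A)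
    (hy : coeffMap A.subtype y ∈ laurentBaseChange L (modularFunctionFieldFull N))
    (hyk : coeffMap π y ∈ modularFunctionFieldFullC k N) (hne : coeffMap π y ≠ 0)
    (Q : Place k (modularFunctionFieldFullC k N))
    (hQ : Q.ord (⟨coeffMap π y, hyk⟩ : modularFunctionFieldFullC k N) ≠ 0) :
    ∃ P, r P = Q := by
  classical
  have hy0 : (⟨coeffMap A.subtype y, hy⟩ : laurentBaseChange L (modularFunctionFieldFull N)) ≠ 0 := by
    intro h0
    apply hne
    have h1 : coeffMap A.subtype y = 0 := congrArg Subtype.val h0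
    have : y = 0 := coeffMap_subtype_injective A (by rw [h1, map_zero])
    rw [this, map_zero]
  obtain ⟨D, hD, -⟩ := HasPrincipalDivisors.exists_divisor (K := L) _ hy0
  have h := hr.2 y hy hyk hne D hD Q
  have hmem : Q ∈ (Finsupp.mapDomain r D).support := by
    rw [Finsupp.mem_support_iff, h]
    exact hQ
  obtain ⟨P, -, hP⟩ := Finset.mem_image.mp (Finsupp.mapDomain_support hmem)
  exact ⟨P, hP⟩

variable [IsAlgClosed k]

/-- A nonconstant function of the mod-`ℓ` function field has a pole. -/
theorem exists_ord_neg (hNk : (N : k) ≠ 0) (g : modularFunctionFieldFullC k N)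
    (hg : ∀ c : k, g ≠ algebraMap k (modularFunctionFieldFullC k N) c) :
    ∃ Q : Place k (modularFunctionFieldFullC k N), Q.ord g < 0 := by
  by_contra hcon
  push Not at hcon
  obtain ⟨c, hc⟩ := FkBasics.exists_algebraMap_eq_of_forall_ord_nonneg_Fk k N hNk g hcon
  exact hg c hc

/-- A nonconstant function of the mod-`ℓ` function field has a zero. -/
theorem exists_ord_pos (hNk : (N : k) ≠ 0) (g : modularFunctionFieldFullC k N)
    (hg : ∀ c : k, g ≠ algebraMap k (modularFunctionFieldFullC k N) c) :
    ∃ Q : Place k (modularFunctionFieldFullC k N), 0 < Q.ord g := by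
  have hg' : ∀ c : k, g⁻¹ ≠ algebraMap k (modularFunctionFieldFullC k N) c := by
    intro c hc
    apply hg c⁻¹
    rw [map_inv₀, ← hc, inv_inv]
  obtain ⟨Q, hQ⟩ := exists_ord_neg hNk g⁻¹ hg'
  refine ⟨Q, ?_⟩
  rw [Q.ord_inv] at hQ
  omega

omit [IsAlgClosed k] in
theorem jk_sub_ne_algebraMap (c c' : k) :
    FkBasics.jk k N - algebraMap k (modularFunctionFieldFullC k N) c ≠
      algebraMap k (modularFunctionFieldFullC k N) c' := by
  intro h
  have h1 : FkBasics.jk k N = algebraMap k (modularFunctionFieldFullC k N) (c' + c) := by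
    rw [map_add, ← h]; ring
  exact (FkBasics.transcendental_jk k N) (h1 ▸ isAlgebraic_algebraMap (c' + c))

/-- **The reduction of places takes at least three values.** -/
theorem exists_three_values (hNk : (N : k) ≠ 0)
    [HasPrincipalDivisors L (laurentBaseChange L (modularFunctionFieldFull N))]
    (hr : IsPlaceReductionAlong A π N r) :
    ∃ P1 P2 P3, r P1 ≠ r P2 ∧ r P1 ≠ r P3 ∧ r P2 ≠ r P3 := by
  -- the three places of the special fibre
  have hj : ∀ c : k, FkBasics.jk k N ≠ algebraMap k (modularFunctionFieldFullC k N) c := by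
    intro c
    have := jk_sub_ne_algebraMap (N := N) (0 : k) c
    rwa [map_zero, sub_zero] at this
  obtain ⟨Qi, hQi⟩ := exists_ord_neg hNk (FkBasics.jk k N) hj
  obtain ⟨Q0, hQ0⟩ := exists_ord_pos hNk (FkBasics.jk k N) hj
  have hj1 : ∀ c : k, FkBasics.jk k N - 1 ≠ algebraMap k (modularFunctionFieldFullC k N) c := by
    intro c
    have := jk_sub_ne_algebraMap (N := N) (1 : k) c
    rwa [map_one] at this
  obtain ⟨Q1, hQ1⟩ := exists_ord_pos hNk (FkBasics.jk k N - 1) hj1
  have hj0 : FkBasics.jk k N ≠ 0 := by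
    have := hj 0
    rwa [map_zero] at this
  have hj10 : FkBasics.jk k N - 1 ≠ 0 := by
    have := hj1 0
    rwa [map_zero] at this
  have hQ1' : Q1.ord (FkBasics.jk k N) = 0 := by
    have h1 : Q1.ord ((1 : modularFunctionFieldFullC k N) + (FkBasics.jk k N - 1)) =
        Q1.ord (1 : modularFunctionFieldFullC k N) :=
      Fermat.Agent.S24.ZP.ord_add_eq_of_lt Q1 hj10 (by rw [Q1.ord_one]; exact hQ1) one_ne_zero
    rw [add_sub_cancel, Q1.ord_one] at h1
    exact h1
  -- they are values of `r`
  have hyL : coeffMap A.subtype (jqModC A) ∈ laurentBaseChange L (modularFunctionFieldFull N) := by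
    rw [coeffMap_jqModC]
    exact GoodRed.jqModC_mem_FBar L N
  have hyk : coeffMap π (jqModC A) ∈ modularFunctionFieldFullC k N := by
    rw [coeffMap_jqModC]
    exact jqModC_mem_full k N
  have hyeq : (⟨coeffMap π (jqModC A), hyk⟩ : modularFunctionFieldFullC k N) = FkBasics.jk k N :=
    Subtype.ext (coeffMap_jqModC π)
  have hyne : coeffMap π (jqModC A) ≠ 0 := by
    intro h0
    apply hj0
    rw [← hyeq]
    exact Subtype.ext h0
  have hyL1 : coeffMap A.subtype (jqModC A - 1) ∈
      laurentBaseChange L (modularFunctionFieldFull N) := by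
    rw [map_sub, map_one]
    exact sub_mem hyL (one_mem _)
  have hyk1 : coeffMap π (jqModC A - 1) ∈ modularFunctionFieldFullC k N := by
    rw [map_sub, map_one]
    exact sub_mem hyk (one_mem _)
  have hyeq1 : (⟨coeffMap π (jqModC A - 1), hyk1⟩ : modularFunctionFieldFullC k N) =
      FkBasics.jk k N - 1 := by
    apply Subtype.ext
    show coeffMap π (jqModC A - 1) = _
    rw [map_sub, map_one, coeffMap_jqModC]
    rfl
  have hyne1 : coeffMap π (jqModC A - 1) ≠ 0 := by
    intro h0
    apply hj10
    rw [← hyeq1]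
    exact Subtype.ext h0
  obtain ⟨Pi, hPi⟩ := exists_eq_of_ord_ne_zero hr (jqModC A) hyL hyk hyne Qi
    (by rw [hyeq]; omega)
  obtain ⟨P0, hP0⟩ := exists_eq_of_ord_ne_zero hr (jqModC A) hyL hyk hyne Q0
    (by rw [hyeq]; omega)
  obtain ⟨P1, hP1⟩ := exists_eq_of_ord_ne_zero hr (jqModC A - 1) hyL1 hyk1 hyne1 Q1
    (by rw [hyeq1]; omega)
  refine ⟨Pi, P0, P1, ?_, ?_, ?_⟩
  · rw [hPi, hP0]
    rintro rfl
    omega
  · rw [hPi, hP1]
    rintro rfl
    omega
  · rw [hP0, hP1]
    rintro rfl
    omega

end Values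

section HeckeBounded

variable {L : Type*} [Field L] [Algebra ℚ L] {A : ValuationSubring L}
variable {k : Type} [Field k] {π : A →+* k}
variable {N ℓ : ℕ} [NeZero N] [hℓ : Fact ℓ.Prime] [CharP k ℓ] [PerfectRing k ℓ]
variable (hα : HeckeAlphaBarIntegral L N ℓ) (hβ : HeckeBetaBarIntegral L N ℓ)
variable [HasPrincipalDivisors L (laurentBaseChange L (modularFunctionFieldFull (N * ℓ)))]
variable [HasPrincipalDivisors L (laurentBaseChange L (modularFunctionFieldFull N))]
variable {r : Place L (laurentBaseChange L (modularFunctionFieldFull N)) →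
  Place k (modularFunctionFieldFullC k N)}

omit [NeZero N] in
theorem frobPsi_single_apply (Q Q0 : Place k (modularFunctionFieldFullC k N)) :
    (frobPsi k N ℓ (Finsupp.single Q 1)) Q0 =
      (Finsupp.single Q (1 : ℤ)) ((frobC k N ℓ)⁻¹ • Q0) +
        (ℓ : ℤ) * (Finsupp.single Q (1 : ℤ)) (frobC k N ℓ • Q0) := by
  rw [frobPsi_apply, Finsupp.add_apply, Finsupp.smul_apply, SemilinearAut.divisor_smul_apply,
    SemilinearAut.divisor_smul_apply, inv_inv, smul_eq_mul]

set_option maxHeartbeats 1600000 in
/-- **Eichler–Shimura congruence on ALL divisors** (boundedness argument). -/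
theorem mapDomain_heckeDivBar_of_bounded
    (hFI : FundamentalIdentityAlong L (heckeBetaBar L N ℓ) hβ)
    (hfin : FiniteAlong L (heckeAlphaBar L N ℓ))
    (hN : NormFormulaAlong L (heckeAlphaBar L N ℓ) hfin)
    (hr : IsPlaceReductionAlong A π N r) (hgen : PrincipalGeneratedByIntegral A π N)
    (hnorm : NormReductionIntegral A π N ℓ)
    (hdeg : ∀ P : Place L (laurentBaseChange L (modularFunctionFieldFull N)), P.deg = 1)
    (hdegk : ∀ Q : Place k (modularFunctionFieldFullC k N), Q.deg = 1)
    {g : ℕ} (hR : EffectiveBound L (laurentBaseChange L (modularFunctionFieldFull N)) g)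
    (hfr : finrankAlong L (heckeBetaBar L N ℓ) = ℓ + 1)
    (hvals : ∃ P1 P2 P3, r P1 ≠ r P2 ∧ r P1 ≠ r P3 ∧ r P2 ≠ r P3)
    (D : Divisor L (laurentBaseChange L (modularFunctionFieldFull N))) :
    Finsupp.mapDomain r (heckeDivBar hα hβ D) = frobPsi k N ℓ (Finsupp.mapDomain r D) := by
  classical
  refine eq_of_bounded r (heckeDivBar hα hβ) (frobPsi k N ℓ)
    (fun D hD => heckeDivBar_nonneg hα hβ hD) (fun D hD => frobPsi_nonneg hD)
    hdeg hdegk hR ((ℓ : ℤ) + 1) ?_ ?_ ?_ ?_ D
  · intro D
    have h1 : Divisor.degree (heckeDivBar hα hβ D) =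
        (finrankAlong L (heckeBetaBar L N ℓ) : ℤ) * Divisor.degree D :=
      Divisor.degree_correspondence (heckeBetaBar L N ℓ) (heckeAlphaBar L N ℓ) hβ hα hFI _
    rw [h1, hfr]
    push_cast
    ring
  · intro D
    rw [frobPsi_apply, map_add, map_zsmul, SemilinearAut.degree_smul, SemilinearAut.degree_smul,
      smul_eq_mul]
    ring
  · intro D hD
    have hD' : (1 : ℤ) • D ∈ Divisor.principal (K := L)
        (F := laurentBaseChange L (modularFunctionFieldFull N)) := by rwa [one_smul]
    exact mapDomain_heckeDivBar_of_torsion hα hβ (divRed_integral hr hgen) hfin hN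
      (hnorm_of_normReductionIntegral hnorm) one_ne_zero hD'
  · intro Q0
    obtain ⟨P1, P2, P3, h12, h13, h23⟩ := hvals
    have key : ∀ P, r P ≠ (frobC k N ℓ)⁻¹ • Q0 → r P ≠ frobC k N ℓ • Q0 →
        (frobPsi k N ℓ (Finsupp.single (r P) 1)) Q0 = 0 := by
      intro P h1 h2
      rw [frobPsi_single_apply, Finsupp.single_apply, Finsupp.single_apply, if_neg h1, if_neg h2]
      simp
    by_cases a1 : r P1 = (frobC k N ℓ)⁻¹ • Q0
    · by_cases b2 : r P2 = frobC k N ℓ • Q0
      · refine ⟨P3, key P3 ?_ ?_⟩
        · rw [← a1]; exact Ne.symm h13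
        · rw [← b2]; exact Ne.symm h23
      · refine ⟨P2, key P2 ?_ b2⟩
        rw [← a1]; exact Ne.symm h12
    · by_cases b1 : r P1 = frobC k N ℓ • Q0
      · by_cases a2 : r P2 = (frobC k N ℓ)⁻¹ • Q0
        · refine ⟨P3, key P3 ?_ ?_⟩
          · rw [← a2]; exact Ne.symm h23
          · rw [← b1]; exact Ne.symm h13
        · refine ⟨P2, key P2 a2 ?_⟩
          rw [← b1]; exact Ne.symm h12
      · exact ⟨P1, key P1 a1 b1⟩

end HeckeBounded

section GaloisBounded

variable {L : Type*} [Field L] [Algebra ℚ L] {A : ValuationSubring L}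
variable {k : Type} [Field k] {π : A →+* k} {N : ℕ}
variable [HasPrincipalDivisors L (laurentBaseChange L (modularFunctionFieldFull N))]
variable {r : Place L (laurentBaseChange L (modularFunctionFieldFull N)) →
  Place k (modularFunctionFieldFullC k N)}

set_option maxHeartbeats 1600000 in
/-- **Galois equivariance of the reduction on ALL divisors** (boundedness argument). -/
theorem mapDomain_galois_smul_of_bounded
    (hr : IsPlaceReductionAlong A π N r) (hgen : PrincipalGeneratedByIntegral A π N)
    (σ : L ≃ₐ[ℚ] L) (σA : A →+* A) (hσA : ∀ a : A, ((σA a : A) : L) = σ a)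
    (τ : k ≃+* k) (hτ : ∀ a : A, π (σA a) = τ (π a))
    (hdeg : ∀ P : Place L (laurentBaseChange L (modularFunctionFieldFull N)), P.deg = 1)
    (hdegk : ∀ Q : Place k (modularFunctionFieldFullC k N), Q.deg = 1)
    {g : ℕ} (hR : EffectiveBound L (laurentBaseChange L (modularFunctionFieldFull N)) g)
    (hvals : ∃ P1 P2, r P1 ≠ r P2)
    (D : Divisor L (laurentBaseChange L (modularFunctionFieldFull N))) :
    Finsupp.mapDomain r (arithmeticGalois (modularFunctionFieldFull N) σ • D) =
      coeffGaloisC k N τ • Finsupp.mapDomain r D := by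
  classical
  refine eq_of_bounded r
    (DistribSMul.toAddMonoidHom (Divisor L (laurentBaseChange L (modularFunctionFieldFull N)))
      (arithmeticGalois (modularFunctionFieldFull N) σ))
    (DistribSMul.toAddMonoidHom (Divisor k (modularFunctionFieldFullC k N))
      (coeffGaloisC k N τ))
    (fun D hD => semilinear_smul_nonneg _ hD) (fun D hD => semilinear_smul_nonneg _ hD)
    hdeg hdegk hR 1 ?_ ?_ ?_ ?_ D
  · intro D
    rw [one_mul]
    exact SemilinearAut.degree_smul _ _
  · intro D
    rw [one_mul]
    exact SemilinearAut.degree_smul _ _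
  · intro D hD
    have hD' : (1 : ℤ) • D ∈ Divisor.principal (K := L)
        (F := laurentBaseChange L (modularFunctionFieldFull N)) := by rwa [one_smul]
    exact mapDomain_galois_smul_of_torsion (divRed_integral hr hgen) σ τ
      (hσ_of_compat σ σA hσA τ hτ) one_ne_zero hD'
  · intro Q0
    obtain ⟨P1, P2, h12⟩ := hvals
    have key : ∀ P, r P ≠ (coeffGaloisC k N τ)⁻¹ • Q0 →
        (DistribSMul.toAddMonoidHom (Divisor k (modularFunctionFieldFullC k N))
          (coeffGaloisC k N τ) (Finsupp.single (r P) 1)) Q0 = 0 := by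
      intro P h1
      show (coeffGaloisC k N τ • (Finsupp.single (r P) (1 : ℤ) :
        Divisor k (modularFunctionFieldFullC k N))) Q0 = 0
      rw [SemilinearAut.divisor_smul_apply, Finsupp.single_apply, if_neg h1]
    by_cases a1 : r P1 = (coeffGaloisC k N τ)⁻¹ • Q0
    · refine ⟨P2, key P2 ?_⟩
      rw [← a1]; exact Ne.symm h12
    · exact ⟨P1, key P1 a1⟩

end GaloisBounded

end Fermat.Agent.Gateway.ES
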