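import Mathlib
import Fermat.Agent.Gateway.ES.Pic0
import Fermat.Agent.Gateway.ES.ResidueField
import Fermat.Agent.Gateway.ESC.NormQExp

/-!
# The norm reduction input is unconditional over `Q̄`

`NormReductionIntegral A (residue A) N ℓ` for every valuation subring `A` of `Q̄` over `ℓ ∤ N`,
from the `q`-expansion norm product formula (C1, `ESC.normQExpFormula_algebraicClosure`) and
`Kummer.exists_heckeFun_integral`.
-/

set_option autoImplicit false

noncomputable section

namespace Fermat.Agent.Gateway.ES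

open ModularCurve HahnSeries AlgebraicCurve IntermediateField

section

variable {L : Type*} [Field L] [Algebra ℚ L] (A : ValuationSubring L)
variable {k : Type*} [Field k] (π : A →+* k) (N ℓ : ℕ) [NeZero N] [hℓ : Fact ℓ.Prime]
  [CharP k ℓ]

/-- `NormReductionIntegral` from (C1) and a root of unity of `A` reducing to `1`. -/
theorem normReductionIntegral_of_C1 (ζA : Aˣ) (hζ : π ζA = 1)
    (hC1 : Kummer.NormQExpFormula L N ℓ (Units.map (A.subtype : A →* L) ζA)) :
    NormReductionIntegral A π N ℓ := by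
  intro y hy _ _
  exact Kummer.exists_heckeFun_integral N ℓ A π ζA hζ hC1 y hy

end

section Qbar

variable (A : ValuationSubring (AlgebraicClosure ℚ)) (N ℓ : ℕ) [NeZero N] [hℓ : Fact ℓ.Prime]
  [CharP (IsLocalRing.ResidueField A) ℓ]

theorem exists_primitiveRoot_unit :
    ∃ ζA : Aˣ, IsPrimitiveRoot (Units.map (A.subtype : A →* AlgebraicClosure ℚ) ζA) ℓ ∧
      IsLocalRing.residue A ζA = 1 := by
  have : NeZero ((ℓ : ℕ) : AlgebraicClosure ℚ) := ⟨by exact_mod_cast hℓ.out.ne_zero⟩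
  obtain ⟨ζ, hζ⟩ := HasEnoughRootsOfUnity.exists_primitiveRoot (AlgebraicClosure ℚ) ℓ
  have hint : ∀ m : ℕ, IsIntegral A (ζ ^ m) := fun m =>
    IsIntegral.pow ((hζ.isIntegral hℓ.out.pos).tower_top) m
  have hmem : ∀ m : ℕ, ζ ^ m ∈ A := fun m => by
    obtain ⟨a, ha⟩ := IsIntegrallyClosed.isIntegral_iff.mp (hint m)
    rw [← ha]
    exact a.2
  have h1 : ζ ∈ A := by simpa using hmem 1
  have hmul : (⟨ζ, h1⟩ : A) * ⟨ζ ^ (ℓ - 1), hmem (ℓ - 1)⟩ = 1 := by
    apply Subtype.ext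
    show ζ * ζ ^ (ℓ - 1) = 1
    rw [← pow_succ', Nat.sub_add_cancel hℓ.out.one_le, hζ.pow_eq_one]
  let ζA : Aˣ := ⟨⟨ζ, h1⟩, ⟨ζ ^ (ℓ - 1), hmem (ℓ - 1)⟩, hmul, by rw [mul_comm]; exact hmul⟩
  refine ⟨ζA, ?_, ?_⟩
  · rw [← IsPrimitiveRoot.coe_units_iff]
    exact hζ
  · have hpow : (IsLocalRing.residue A (ζA : A)) ^ ℓ = 1 := by
      rw [← map_pow]
      have : ((ζA : A)) ^ ℓ = 1 := by
        apply Subtype.ext
        show ζ ^ ℓ = 1
        exact hζ.pow_eq_one
      rw [this, map_one]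
    have h0 : (IsLocalRing.residue A (ζA : A) - 1) ^ ℓ = 0 := by
      rw [sub_pow_char, hpow, one_pow, sub_self]
    exact sub_eq_zero.mp (pow_eq_zero_iff hℓ.out.ne_zero |>.mp h0)

/-- **The norm reduction input over `Q̄`, unconditionally.** -/
theorem normReductionIntegral_qbar (hℓN : ¬ ℓ ∣ N) :
    NormReductionIntegral A (IsLocalRing.residue A) N ℓ := by
  obtain ⟨ζA, hprim, hres⟩ := exists_primitiveRoot_unit A ℓ
  exact normReductionIntegral_of_C1 A (IsLocalRing.residue A) N ℓ ζA hres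
    (Fermat.Agent.Gateway.ESC.normQExpFormula_algebraicClosure N ℓ hℓ.out hℓN _ hprim)

end Qbar

end Fermat.Agent.Gateway.ES
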