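import Mathlib
import Fermat.Prelude.Def_ModularCurve_HeckeModule
import Fermat.Agent.Gateway.ES.AllPic0
import Fermat.Agent.Gateway.ES.ResidueField
import Fermat.Agent.Gateway.Red.S37Final

/-!
# `HasRedData` (the input of `s37_of_redData`) from divisor-level identities

At `(A, ℓ)` we take `Jt := JZeroC (ResidueField A) N`, `red := reductionModL A N` and
`Fr := frobC • ·`.  Inputs: the reduction inputs, the Hecke inputs, the divisor-level
Eichler–Shimura congruence and Galois equivariance for the chosen reduction of places, and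
injectivity of the reduction on `p`-power torsion.
-/

set_option autoImplicit false

noncomputable section

namespace Fermat.Agent.Gateway.ES

open ModularCurve HahnSeries AlgebraicCurve IntermediateField

section At

variable {N ℓ : ℕ} [NeZero N] [hℓ : Fact ℓ.Prime]
variable {A : ValuationSubring (AlgebraicClosure ℚ)}
variable [CharP (IsLocalRing.ResidueField A) ℓ] [PerfectRing (IsLocalRing.ResidueField A) ℓ]

/-- The Frobenius endomorphism of the mod-`ℓ` Jacobian. -/
def frobJ (A : ValuationSubring (AlgebraicClosure ℚ)) (N ℓ : ℕ) [Fact ℓ.Prime]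
    [CharP (IsLocalRing.ResidueField A) ℓ] [PerfectRing (IsLocalRing.ResidueField A) ℓ] :
    JZeroC (IsLocalRing.ResidueField A) N →+ JZeroC (IsLocalRing.ResidueField A) N :=
  DistribSMul.toAddMonoidHom (JZeroC (IsLocalRing.ResidueField A) N)
    (frobC (IsLocalRing.ResidueField A) N ℓ)

omit [NeZero N] in
theorem frobJ_apply (y : JZeroC (IsLocalRing.ResidueField A) N) :
    frobJ A N ℓ y = frobC (IsLocalRing.ResidueField A) N ℓ • y := rfl

variable (hα : HeckeAlphaBarIntegral (AlgebraicClosure ℚ) N ℓ)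
  (hβ : HeckeBetaBarIntegral (AlgebraicClosure ℚ) N ℓ)
variable [HasPrincipalDivisors (AlgebraicClosure ℚ) (modularFunctionFieldBar (N * ℓ))]

set_option maxHeartbeats 1600000 in
/-- The four clauses of `HasRedData` at `(A, ℓ)`. -/
theorem redData_at (p : ℕ)
    (hFI : FundamentalIdentityAlong (AlgebraicClosure ℚ) (heckeBetaBar (AlgebraicClosure ℚ) N ℓ) hβ)
    (hfin : FiniteAlong (AlgebraicClosure ℚ) (heckeAlphaBar (AlgebraicClosure ℚ) N ℓ))
    (hN : NormFormulaAlong (AlgebraicClosure ℚ) (heckeAlphaBar (AlgebraicClosure ℚ) N ℓ) hfin)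
    (h : ReductionInputsModL A N)
    (hdivT : ∀ D, Finsupp.mapDomain h.choose (heckeDivBar hα hβ D) =
      frobPsi (IsLocalRing.ResidueField A) N ℓ (Finsupp.mapDomain h.choose D))
    (hdivG : ∀ (g : A.decompositionSubgroup ℚ)
      (D : Divisor (AlgebraicClosure ℚ) (modularFunctionFieldBar N)),
      Finsupp.mapDomain h.choose
        (arithmeticGalois (modularFunctionFieldFull N)
          (g : AlgebraicClosure ℚ ≃ₐ[ℚ] AlgebraicClosure ℚ) • D) =
      coeffGaloisC (IsLocalRing.ResidueField A) N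
        (MulSemiringAction.toRingAut (A.decompositionSubgroup ℚ)
          (IsLocalRing.ResidueField A) g) • Finsupp.mapDomain h.choose D)
    (hinj : ∀ x : JZero N, (∃ n : ℕ, p ^ n • x = 0) → reductionModL A N x = 0 → x = 0) :
    ∃ (Jt : Type) (_ : AddCommGroup Jt) (red : JZero N →+ Jt) (Fr : Jt →+ Jt),
      (∀ σ ∈ A.inertiaSubgroupIn ℚ, ∀ x : JZero N, red (σ • x) = red x) ∧
      (∀ σ : AlgebraicClosure ℚ ≃ₐ[ℚ] AlgebraicClosure ℚ, A.IsFrobeniusAt σ ℓ →
        ∀ x : JZero N, red (σ • x) = Fr (red x)) ∧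
      (∀ x : JZero N, (∃ n : ℕ, p ^ n • x = 0) → red x = 0 → x = 0) ∧
      (∀ σ : AlgebraicClosure ℚ ≃ₐ[ℚ] AlgebraicClosure ℚ, A.IsFrobeniusAt σ ℓ →
        ∀ x : JZero N, red (heckeOperatorBar N ⟨ℓ, hℓ.out⟩ (σ • x)) =
          Fr (Fr (red x)) + ℓ • red x) := by
  have hfrob : ∀ σ : AlgebraicClosure ℚ ≃ₐ[ℚ] AlgebraicClosure ℚ, A.IsFrobeniusAt σ ℓ →
      ∀ x : JZero N, reductionModL A N (σ • x) = frobJ A N ℓ (reductionModL A N x) := by
    rintro σ ⟨hmem, hfr⟩ x
    have h1 : MulSemiringAction.toRingAut (A.decompositionSubgroup ℚ)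
        (IsLocalRing.ResidueField A) ⟨σ, hmem⟩ =
          frobeniusEquiv (IsLocalRing.ResidueField A) ℓ := by
      ext z
      rw [MulSemiringAction.toRingAut_apply]
      exact (hfr z).trans (by rw [frobeniusEquiv_apply, frobenius_def])
    have h2 := reductionAlong_galois_smul_of_divisor h σ _ (hdivG ⟨σ, hmem⟩) x
    rw [h1] at h2
    exact h2
  refine ⟨JZeroC (IsLocalRing.ResidueField A) N, inferInstance, reductionModL A N,
    frobJ A N ℓ, ?_, hfrob, hinj, ?_⟩
  · rintro σ ⟨g, hg, rfl⟩ x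
    have h1 : MulSemiringAction.toRingAut (A.decompositionSubgroup ℚ)
        (IsLocalRing.ResidueField A) g = 1 := hg
    have h2 := reductionAlong_galois_smul_of_divisor h
      (g : AlgebraicClosure ℚ ≃ₐ[ℚ] AlgebraicClosure ℚ) _ (hdivG g) x
    rw [h1, map_one, one_smul] at h2
    exact h2
  · intro σ hσ x
    have e0 : heckeOperatorBar N ⟨ℓ, hℓ.out⟩ (σ • x) =
        heckePic0Bar hα hβ hFI hfin hN (σ • x) :=
      (heckeOperatorBar_apply N ⟨ℓ, hℓ.out⟩ (σ • x)).trans
        (DFunLike.congr_fun (heckeOperatorAlong_eq hα hβ hFI hfin hN) (σ • x))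
    have e1 := reductionAlong_hecke_of_divisor hα hβ hFI hfin hN h hdivT (σ • x)
    have e2 := hfrob σ hσ x
    rw [e0]
    refine e1.trans ?_
    rw [show reductionAlong A (IsLocalRing.residue A) N (σ • x) =
        frobJ A N ℓ (reductionModL A N x) from e2, frobJ_apply,
      inv_smul_smul (frobC (IsLocalRing.ResidueField A) N ℓ)]
    congr 1

end At

/-- `HasRedData N p` from the inputs at every `(ℓ, A)`. -/
theorem hasRedData_of_inputs (N p : ℕ) [NeZero N]
    (H : ∀ ℓ : ℕ, (hℓ : ℓ.Prime) → ¬ ℓ ∣ N * p →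
      ∀ A : ValuationSubring (AlgebraicClosure ℚ), A.LiesOverPrime ℓ →
        ∀ (_ : Fact ℓ.Prime) (_ : CharP (IsLocalRing.ResidueField A) ℓ)
          (_ : PerfectRing (IsLocalRing.ResidueField A) ℓ),
        ∃ (hα : HeckeAlphaBarIntegral (AlgebraicClosure ℚ) N ℓ)
          (hβ : HeckeBetaBarIntegral (AlgebraicClosure ℚ) N ℓ)
          (_ : HasPrincipalDivisors (AlgebraicClosure ℚ) (modularFunctionFieldBar (N * ℓ)))
          (hfin : FiniteAlong (AlgebraicClosure ℚ) (heckeAlphaBar (AlgebraicClosure ℚ) N ℓ))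
          (_ : FundamentalIdentityAlong (AlgebraicClosure ℚ)
            (heckeBetaBar (AlgebraicClosure ℚ) N ℓ) hβ)
          (_ : NormFormulaAlong (AlgebraicClosure ℚ)
            (heckeAlphaBar (AlgebraicClosure ℚ) N ℓ) hfin)
          (h : ReductionInputsModL A N),
          (∀ D, Finsupp.mapDomain h.choose (heckeDivBar hα hβ D) =
            frobPsi (IsLocalRing.ResidueField A) N ℓ (Finsupp.mapDomain h.choose D)) ∧
          (∀ (g : A.decompositionSubgroup ℚ)
            (D : Divisor (AlgebraicClosure ℚ) (modularFunctionFieldBar N)),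
            Finsupp.mapDomain h.choose
              (arithmeticGalois (modularFunctionFieldFull N)
                (g : AlgebraicClosure ℚ ≃ₐ[ℚ] AlgebraicClosure ℚ) • D) =
            coeffGaloisC (IsLocalRing.ResidueField A) N
              (MulSemiringAction.toRingAut (A.decompositionSubgroup ℚ)
                (IsLocalRing.ResidueField A) g) • Finsupp.mapDomain h.choose D) ∧
          (∀ x : JZero N, (∃ n : ℕ, p ^ n • x = 0) → reductionModL A N x = 0 → x = 0)) :
    Fermat.Agent.Gateway.Red.HasRedData N p := by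
  intro ℓ hℓ hℓN A hA
  have : Fact ℓ.Prime := ⟨hℓ⟩
  have := charP_residueField_of_liesOverPrime A hA
  obtain ⟨hα, hβ, hP, hfin, hFI, hN, h, hdivT, hdivG, hinj⟩ :=
    H ℓ hℓ hℓN A hA inferInstance inferInstance inferInstance
  exact redData_at hα hβ p hFI hfin hN h hdivT hdivG hinj

end Fermat.Agent.Gateway.ES
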