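import Mathlib
import Fermat.Agent.Gateway.ES.NormInput
import Fermat.Agent.Gateway.ES.Quadratic
import Fermat.Agent.Gateway.ES.RedData
import Fermat.Agent.Gateway.Hecke.Inputs

/-!
# Final forms over `Q̄` with the Hecke inputs (HK1) and the norm input (C1) discharged

For a valuation subring `A` of `Q̄` over `ℓ ∤ N`, the only remaining inputs are the reduction
inputs `ReductionInputsModL A N` (a reduction of places) and, for the quadratic relation,
injectivity of the reduction on the torsion in question.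
-/

set_option autoImplicit false

noncomputable section

namespace Fermat.Agent.Gateway.ES

open ModularCurve HahnSeries AlgebraicCurve IntermediateField

section

variable {N ℓ : ℕ} [NeZero N] [hℓ : Fact ℓ.Prime]
variable {A : ValuationSubring (AlgebraicClosure ℚ)}
variable [CharP (IsLocalRing.ResidueField A) ℓ]

/-- Eichler–Shimura congruence for `reductionModL` and the Prelude's total Hecke operator, on
torsion classes. -/
theorem reductionModL_hecke_of_torsion (hℓN : ¬ ℓ ∣ N) (h : ReductionInputsModL A N)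
    (x : JZero N) {m : ℤ} (hm : m ≠ 0) (hx : m • x = 0) :
    reductionModL A N (heckeOperatorAlong (AlgebraicClosure ℚ) N ℓ x) =
      frobC (IsLocalRing.ResidueField A) N ℓ • reductionModL A N x +
        (ℓ : ℤ) • ((frobC (IsLocalRing.ResidueField A) N ℓ)⁻¹ • reductionModL A N x) := by
  rw [heckeOperatorAlong_eq
    (Fermat.Agent.Gateway.Hecke.heckeAlphaBarIntegral (AlgebraicClosure ℚ) N ℓ)
    (Fermat.Agent.Gateway.Hecke.heckeBetaBarIntegral (AlgebraicClosure ℚ) N ℓ)
    (Fermat.Agent.Gateway.Hecke.fundamentalIdentityAlong_beta (AlgebraicClosure ℚ) N ℓ)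
    (Fermat.Agent.Gateway.Hecke.finiteAlong_alpha (AlgebraicClosure ℚ) N ℓ)
    (Fermat.Agent.Gateway.Hecke.normFormulaAlong_alpha (AlgebraicClosure ℚ) N ℓ)]
  exact reductionAlong_hecke_of_torsion _ _ _ _ _ h (normReductionIntegral_qbar A N ℓ hℓN) x hm hx

/-- Raw Eichler–Shimura relation on `m`-torsion for the Prelude's total Hecke operator. -/
theorem frobenius_quadratic_modL (hℓN : ¬ ℓ ∣ N) (h : ReductionInputsModL A N)
    {σ : AlgebraicClosure ℚ ≃ₐ[ℚ] AlgebraicClosure ℚ} (hσ : A.IsFrobeniusAt σ ℓ)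
    (x : JZero N) {m : ℤ} (hm : m ≠ 0) (hx : m • x = 0)
    (hinj : ∀ z : JZero N, m • z = 0 → reductionModL A N z = 0 → z = 0) :
    σ • σ • x - heckeOperatorAlong (AlgebraicClosure ℚ) N ℓ (σ • x) + (ℓ : ℤ) • x = 0 := by
  rw [heckeOperatorAlong_eq
    (Fermat.Agent.Gateway.Hecke.heckeAlphaBarIntegral (AlgebraicClosure ℚ) N ℓ)
    (Fermat.Agent.Gateway.Hecke.heckeBetaBarIntegral (AlgebraicClosure ℚ) N ℓ)
    (Fermat.Agent.Gateway.Hecke.fundamentalIdentityAlong_beta (AlgebraicClosure ℚ) N ℓ)
    (Fermat.Agent.Gateway.Hecke.finiteAlong_alpha (AlgebraicClosure ℚ) N ℓ)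
    (Fermat.Agent.Gateway.Hecke.normFormulaAlong_alpha (AlgebraicClosure ℚ) N ℓ)]
  exact frobenius_quadratic_of_torsion _ _ _ _ _ h (normReductionIntegral_qbar A N ℓ hℓN) hσ x hm
    hx hinj

end

end Fermat.Agent.Gateway.ES
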