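import Mathlib
import Fermat.Agent.Gateway.ES.AllDivisors
import Fermat.Agent.Gateway.ES.NormInput
import Fermat.Agent.Gateway.ES.RedData
import Fermat.Agent.Gateway.Hecke.Inputs
import Fermat.Agent.Gateway.ESC.CharpolyBeta
import Fermat.Agent.Gateway.ESC.DegreeS24
import Fermat.Agent.Lib.RiemannRoch.Modular
import Fermat.Agent.Gateway.Descent.S37Descent

/-!
# The reduction data of S37 from `ReductionInputsModL` and injectivity on torsion

For a valuation subring `A` of `Q̄` over a prime `ℓ ∤ M`, the Eichler–Shimura congruence and the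
Galois equivariance of the reduction of places hold on ALL divisors (boundedness argument,
`AllDivisors.lean`), with every input discharged except the reduction inputs
`ReductionInputsModL A M` themselves.  Consequently

* `hasRedDataAt_of_reductionInputs` : `Descent.HasRedDataAt M p ℓ hℓ A` from
  `ReductionInputsModL A M` and injectivity of `reductionModL A M` on `p`-power torsion.
-/

set_option autoImplicit false

noncomputable section

namespace Fermat.Agent.Gateway.ES

open ModularCurve HahnSeries AlgebraicCurve IntermediateField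

section Qbar

variable {M ℓ : ℕ} [NeZero M] [hℓ : Fact ℓ.Prime]
variable {A : ValuationSubring (AlgebraicClosure ℚ)}
variable [CharP (IsLocalRing.ResidueField A) ℓ]

/-- Riemann's inequality for `X₀(M)` over `Q̄` in the form of `EffectiveBound`. -/
theorem effectiveBound_modular (M : ℕ) [NeZero M] :
    EffectiveBound (AlgebraicClosure ℚ) (modularFunctionFieldBar M)
      (genusFF (AlgebraicClosure ℚ) (modularFunctionFieldBar M)) :=
  effectiveBound_of_riemann _
    (Fermat.Agent.Lib.RiemannRoch.Modular.le_finrank_riemannRochSpace_modular M)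

omit [NeZero M] hℓ in
theorem natCast_ne_zero_residueField (hℓM : ¬ ℓ ∣ M) : (M : IsLocalRing.ResidueField A) ≠ 0 := by
  rw [Ne, CharP.cast_eq_zero_iff (IsLocalRing.ResidueField A) ℓ]
  exact hℓM

/-- The degree of `β` over `Q̄`. -/
theorem finrankAlong_beta_qbar (hℓM : ¬ ℓ ∣ M) :
    finrankAlong (AlgebraicClosure ℚ) (heckeBetaBar (AlgebraicClosure ℚ) M ℓ) = ℓ + 1 := by
  have : NeZero ((ℓ : ℕ) : AlgebraicClosure ℚ) := ⟨by exact_mod_cast hℓ.out.ne_zero⟩
  obtain ⟨ζ, hζ⟩ := HasEnoughRootsOfUnity.exists_primitiveRoot (AlgebraicClosure ℚ) ℓ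
  exact Fermat.Agent.Gateway.ESC.finrankAlong_beta
    (Fermat.Agent.Gateway.ESC.finrank_along_alpha M ℓ hℓ.out hℓM) hℓ.out hℓM
    (hζ.isUnit hℓ.out.ne_zero).unit (hζ.isUnit_unit hℓ.out.ne_zero)

/-- **Eichler–Shimura congruence on all divisors over `Q̄`**, from the reduction inputs alone. -/
theorem mapDomain_heckeDivBar_qbar (hℓM : ¬ ℓ ∣ M) (h : ReductionInputsModL A M)
    (D : Divisor (AlgebraicClosure ℚ) (modularFunctionFieldBar M)) :
    Finsupp.mapDomain h.choose
        (heckeDivBar (Fermat.Agent.Gateway.Hecke.heckeAlphaBarIntegral (AlgebraicClosure ℚ) M ℓ)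
          (Fermat.Agent.Gateway.Hecke.heckeBetaBarIntegral (AlgebraicClosure ℚ) M ℓ) D) =
      frobPsi (IsLocalRing.ResidueField A) M ℓ (Finsupp.mapDomain h.choose D) := by
  have : IsAlgClosed (IsLocalRing.ResidueField A) := isAlgClosed_residueField A
  have hMk := natCast_ne_zero_residueField (A := A) hℓM
  exact mapDomain_heckeDivBar_of_bounded _ _
    (Fermat.Agent.Gateway.Hecke.fundamentalIdentityAlong_beta (AlgebraicClosure ℚ) M ℓ)
    (Fermat.Agent.Gateway.Hecke.finiteAlong_alpha (AlgebraicClosure ℚ) M ℓ)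
    (Fermat.Agent.Gateway.Hecke.normFormulaAlong_alpha (AlgebraicClosure ℚ) M ℓ)
    h.choose_spec.1 h.choose_spec.2 (normReductionIntegral_qbar A M ℓ hℓM)
    (Fermat.Agent.Gateway.Hecke.deg_eq_one_full (AlgebraicClosure ℚ) M)
    (Fermat.Agent.Gateway.FkBasics.deg_eq_one_Fk (IsLocalRing.ResidueField A) M hMk)
    (effectiveBound_modular M) (finrankAlong_beta_qbar hℓM)
    (exists_three_values hMk h.choose_spec.1) D

omit hℓ in
/-- **Galois equivariance of the reduction on all divisors over `Q̄`**, from the reduction inputs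
alone. -/
theorem mapDomain_galois_smul_qbar (hℓM : ¬ ℓ ∣ M) (h : ReductionInputsModL A M)
    (g : A.decompositionSubgroup ℚ)
    (D : Divisor (AlgebraicClosure ℚ) (modularFunctionFieldBar M)) :
    Finsupp.mapDomain h.choose
        (arithmeticGalois (modularFunctionFieldFull M)
          (g : AlgebraicClosure ℚ ≃ₐ[ℚ] AlgebraicClosure ℚ) • D) =
      coeffGaloisC (IsLocalRing.ResidueField A) M
        (MulSemiringAction.toRingAut (A.decompositionSubgroup ℚ)
          (IsLocalRing.ResidueField A) g) • Finsupp.mapDomain h.choose D := by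
  have : IsAlgClosed (IsLocalRing.ResidueField A) := isAlgClosed_residueField A
  have hMk := natCast_ne_zero_residueField (A := A) hℓM
  obtain ⟨P1, P2, P3, h12, -, -⟩ := exists_three_values hMk h.choose_spec.1
  exact mapDomain_galois_smul_of_bounded h.choose_spec.1 h.choose_spec.2
    (g : AlgebraicClosure ℚ ≃ₐ[ℚ] AlgebraicClosure ℚ)
    (MulSemiringAction.toRingHom (A.decompositionSubgroup ℚ) A g) (fun _ => rfl)
    _ (fun _ => rfl)
    (Fermat.Agent.Gateway.Hecke.deg_eq_one_full (AlgebraicClosure ℚ) M)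
    (Fermat.Agent.Gateway.FkBasics.deg_eq_one_Fk (IsLocalRing.ResidueField A) M hMk)
    (effectiveBound_modular M) ⟨P1, P2, h12⟩ D

end Qbar

/-- **The reduction data of S37 at `(ℓ, A)`** from the reduction inputs and injectivity of the
reduction on `p`-power torsion. -/
theorem hasRedDataAt_of_reductionInputs {M p ℓ : ℕ} [NeZero M] (hℓ : ℓ.Prime) (hℓM : ¬ ℓ ∣ M)
    (A : ValuationSubring (AlgebraicClosure ℚ)) (hA : A.LiesOverPrime ℓ)
    (h : ReductionInputsModL A M)
    (hinj : ∀ x : JZero M, (∃ n : ℕ, p ^ n • x = 0) → reductionModL A M x = 0 → x = 0) :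
    Fermat.Agent.Gateway.Descent.HasRedDataAt M p ℓ hℓ A := by
  have : Fact ℓ.Prime := ⟨hℓ⟩
  have := charP_residueField_of_liesOverPrime A hA
  exact redData_at (Fermat.Agent.Gateway.Hecke.heckeAlphaBarIntegral (AlgebraicClosure ℚ) M ℓ)
    (Fermat.Agent.Gateway.Hecke.heckeBetaBarIntegral (AlgebraicClosure ℚ) M ℓ) p
    (Fermat.Agent.Gateway.Hecke.fundamentalIdentityAlong_beta (AlgebraicClosure ℚ) M ℓ)
    (Fermat.Agent.Gateway.Hecke.finiteAlong_alpha (AlgebraicClosure ℚ) M ℓ)
    (Fermat.Agent.Gateway.Hecke.normFormulaAlong_alpha (AlgebraicClosure ℚ) M ℓ)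
    h (fun D => mapDomain_heckeDivBar_qbar hℓM h D)
    (fun g D => mapDomain_galois_smul_qbar hℓM h g D) hinj

end Fermat.Agent.Gateway.ES
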