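import Mathlib
import Fermat.Agent.Gateway.ES.S37Inputs
import Fermat.Agent.Gateway.Red.Assembly

/-!
# The last ES step of S37, in the shape consumed by `Red/Assembly.lean`

* `redDataAtOfReductionInputs : Red.RedDataAtOfReductionInputs` (unconditional);
* `s37_of_reductionInputs` : the frozen S37 from the reduction inputs at all good levels and (C0)
  at the good levels (`Red.s37_of_reductionInputs_of` with its first hypothesis discharged).
-/

set_option autoImplicit false

noncomputable section

namespace Fermat.Agent.Gateway.ES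

open ModularCurve AlgebraicCurve

/-- **The last ES step**: reduction data at `(ℓ, A)` from the reduction inputs and injectivity on
`p`-power torsion. -/
theorem redDataAtOfReductionInputs : Fermat.Agent.Gateway.Red.RedDataAtOfReductionInputs :=
  fun _ p _ _ hℓ h A hA hr hinj =>
    hasRedDataAt_of_reductionInputs hℓ (fun hd => h (Dvd.dvd.mul_right hd p)) A hA hr hinj

/-- **The frozen S37** from the reduction inputs at all good levels and (C0) at the good
levels. -/
theorem s37_of_reductionInputs (N p : ℕ) [NeZero N] (hcomm : HeckeOperatorsCommuteBar N)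
    (hred : ∀ (M : ℕ) [NeZero M] (ℓ : ℕ), ℓ.Prime → ¬ ℓ ∣ M →
      ((ℓ ≠ 2 ∧ 4 ∣ M) ∨ (ℓ = 2 ∧ 9 ∣ M)) →
      ∀ A : ValuationSubring (AlgebraicClosure ℚ), A.LiesOverPrime ℓ → ReductionInputsModL A M)
    (hC0 : Fermat.Agent.Gateway.Kummer.C0AtGoodLevels) :
    letI := heckeModuleBar N
    ∀ (_ : SMulCommClass (AlgebraicClosure ℚ ≃ₐ[ℚ] AlgebraicClosure ℚ) HeckeAlg (JZero N)),
      SpecializationExists (K := ℚ) (L := AlgebraicClosure ℚ) N p (JZero N) :=
  Fermat.Agent.Gateway.Red.s37_of_reductionInputs_of redDataAtOfReductionInputs N p hcomm hred hC0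

end Fermat.Agent.Gateway.ES
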