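import Mathlib
import Fermat.Agent.Gateway.ES.AllPic0

/-!
# The two-round bootstrap for the moving hypothesis

Round 1: places `P` in a set `G` of "good" places are moved against multiples of a base place
`Pinf` at which the identity is known directly.  Round 2: the remaining places are moved against
multiples of one good place `Q0`.
-/

set_option autoImplicit false

noncomputable section

namespace Fermat.Agent.Gateway.ES

open ModularCurve HahnSeries AlgebraicCurve IntermediateField

section HeckeRounds

variable {L : Type*} [Field L] [Algebra ℚ L]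
variable {k : Type*} [Field k]
variable {N ℓ : ℕ} [NeZero N] [hℓ : Fact ℓ.Prime] [CharP k ℓ] [PerfectRing k ℓ]
variable (hα : HeckeAlphaBarIntegral L N ℓ) (hβ : HeckeBetaBarIntegral L N ℓ)
variable [HasPrincipalDivisors L (laurentBaseChange L (modularFunctionFieldFull (N * ℓ)))]
variable {r : Place L (laurentBaseChange L (modularFunctionFieldFull N)) →
  Place k (modularFunctionFieldFullC k N)}
variable {S : Set (laurentBaseChange L (modularFunctionFieldFull N))}
  {res : laurentBaseChange L (modularFunctionFieldFull N) → modularFunctionFieldFullC k N}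

theorem heckeDivBar_identity_nsmul
    {Z0 : Place L (laurentBaseChange L (modularFunctionFieldFull N))}
    (h0 : Finsupp.mapDomain r (heckeDivBar hα hβ (Finsupp.single Z0 1)) =
      frobPsi k N ℓ (Finsupp.mapDomain r (Finsupp.single Z0 1))) (m : ℕ) :
    Finsupp.mapDomain r (heckeDivBar hα hβ (m • Finsupp.single Z0 1)) =
      frobPsi k N ℓ (Finsupp.mapDomain r (m • Finsupp.single Z0 1)) := by
  rw [map_nsmul, Finsupp.mapDomain_smul, Finsupp.mapDomain_smul, map_nsmul, h0]

theorem nsmul_single_nonneg {K F : Type*} [Field K] [Field F] [Algebra K F] (Z0 : Place K F)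
    (m : ℕ) : (0 : Divisor K F) ≤ m • Finsupp.single Z0 1 := by
  classical
  intro Q
  rw [Finsupp.smul_apply, Finsupp.single_apply]
  split_ifs <;> simp

/-- **Eichler–Shimura congruence on all divisors from the two-round moving hypothesis.** -/
theorem mapDomain_heckeDivBar_of_rounds (hdr : DivRed r S res)
    (hFI : FundamentalIdentityAlong L (heckeBetaBar L N ℓ) hβ)
    (hfin : FiniteAlong L (heckeAlphaBar L N ℓ))
    (hN : NormFormulaAlong L (heckeAlphaBar L N ℓ) hfin)
    (hnorm : ∀ Y ∈ S, normAlpha (heckeBetaBar L N ℓ Y) ∈ S ∧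
      ((res (normAlpha (heckeBetaBar L N ℓ Y)) : modularFunctionFieldFullC k N) :
          LaurentSeries k) =
        qExpand k ℓ ((res Y : modularFunctionFieldFullC k N) : LaurentSeries k) *
          coeffMap (frobenius k ℓ) ((res Y : modularFunctionFieldFullC k N) : LaurentSeries k))
    (hrdeg : ∀ P, (r P).deg = P.deg)
    (hdegk : ∀ Q : Place k (modularFunctionFieldFullC k N), 0 < Q.deg)
    (hfr : finrankAlong L (heckeBetaBar L N ℓ) = ℓ + 1)
    (Pinf : Place L (laurentBaseChange L (modularFunctionFieldFull N)))
    (hinf : Finsupp.mapDomain r (heckeDivBar hα hβ (Finsupp.single Pinf 1)) =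
      frobPsi k N ℓ (Finsupp.mapDomain r (Finsupp.single Pinf 1)))
    (G : Set (Place L (laurentBaseChange L (modularFunctionFieldFull N))))
    (Q0 : Place L (laurentBaseChange L (modularFunctionFieldFull N))) (hQ0 : Q0 ∈ G)
    (h1 : ∀ P ∈ G, ∀ B : Finset (Place k (modularFunctionFieldFullC k N)),
      ∃ (R : Divisor L (laurentBaseChange L (modularFunctionFieldFull N))) (m : ℕ), 0 ≤ R ∧
        (Finsupp.single P 1 + R - m • Finsupp.single Pinf 1) ∈ Divisor.principal (K := L)
          (F := laurentBaseChange L (modularFunctionFieldFull N)) ∧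
        Disjoint (Finsupp.mapDomain r R).support B)
    (h2 : ∀ P ∉ G, ∀ B : Finset (Place k (modularFunctionFieldFullC k N)),
      ∃ (R : Divisor L (laurentBaseChange L (modularFunctionFieldFull N))) (m : ℕ), 0 ≤ R ∧
        (Finsupp.single P 1 + R - m • Finsupp.single Q0 1) ∈ Divisor.principal (K := L)
          (F := laurentBaseChange L (modularFunctionFieldFull N)) ∧
        Disjoint (Finsupp.mapDomain r R).support B)
    (D : Divisor L (laurentBaseChange L (modularFunctionFieldFull N))) :
    Finsupp.mapDomain r (heckeDivBar hα hβ D) = frobPsi k N ℓ (Finsupp.mapDomain r D) := by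
  have hG : ∀ P ∈ G, Finsupp.mapDomain r (heckeDivBar hα hβ (Finsupp.single P 1)) =
      frobPsi k N ℓ (Finsupp.mapDomain r (Finsupp.single P 1)) := by
    intro P hP
    refine mapDomain_heckeDivBar_single_of_moving hα hβ hdr hFI hfin hN hnorm hrdeg hdegk hfr P
      fun B => ?_
    obtain ⟨R, m, hR, hprin, hdisj⟩ := h1 P hP B
    exact ⟨R, m • Finsupp.single Pinf 1, hR, nsmul_single_nonneg Pinf m, hprin,
      heckeDivBar_identity_nsmul hα hβ hinf m, hdisj⟩
  refine mapDomain_heckeDivBar_of_single hα hβ (fun P => ?_) D
  by_cases hP : P ∈ G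
  · exact hG P hP
  · refine mapDomain_heckeDivBar_single_of_moving hα hβ hdr hFI hfin hN hnorm hrdeg hdegk hfr P
      fun B => ?_
    obtain ⟨R, m, hR, hprin, hdisj⟩ := h2 P hP B
    exact ⟨R, m • Finsupp.single Q0 1, hR, nsmul_single_nonneg Q0 m, hprin,
      heckeDivBar_identity_nsmul hα hβ (hG Q0 hQ0) m, hdisj⟩

end HeckeRounds

section GaloisRounds

variable {L : Type*} [Field L] [Algebra ℚ L]
variable {k : Type*} [Field k]
variable {N : ℕ}
variable {r : Place L (laurentBaseChange L (modularFunctionFieldFull N)) →
  Place k (modularFunctionFieldFullC k N)}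
variable {S : Set (laurentBaseChange L (modularFunctionFieldFull N))}
  {res : laurentBaseChange L (modularFunctionFieldFull N) → modularFunctionFieldFullC k N}

theorem galois_identity_nsmul (σ : L ≃ₐ[ℚ] L) (τ : k ≃+* k)
    {Z0 : Place L (laurentBaseChange L (modularFunctionFieldFull N))}
    (h0 : Finsupp.mapDomain r (arithmeticGalois (modularFunctionFieldFull N) σ •
        (Finsupp.single Z0 (1 : ℤ) :
          Divisor L (laurentBaseChange L (modularFunctionFieldFull N)))) =
      coeffGaloisC k N τ • Finsupp.mapDomain r (Finsupp.single Z0 (1 : ℤ) :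
          Divisor L (laurentBaseChange L (modularFunctionFieldFull N)))) (m : ℕ) :
    Finsupp.mapDomain r (arithmeticGalois (modularFunctionFieldFull N) σ •
        (m • Finsupp.single Z0 (1 : ℤ) :
          Divisor L (laurentBaseChange L (modularFunctionFieldFull N)))) =
      coeffGaloisC k N τ • Finsupp.mapDomain r (m • Finsupp.single Z0 (1 : ℤ) :
          Divisor L (laurentBaseChange L (modularFunctionFieldFull N))) := by
  have key : ((Finsupp.mapDomain.addMonoidHom r).comp
      (DistribSMul.toAddMonoidHom (Divisor L (laurentBaseChange L (modularFunctionFieldFull N)))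
        (arithmeticGalois (modularFunctionFieldFull N) σ)))
        (m • Finsupp.single Z0 (1 : ℤ)) =
      ((DistribSMul.toAddMonoidHom (Divisor k (modularFunctionFieldFullC k N))
        (coeffGaloisC k N τ)).comp (Finsupp.mapDomain.addMonoidHom r))
        (m • Finsupp.single Z0 (1 : ℤ)) := by
    rw [map_nsmul, map_nsmul]
    exact congrArg (m • ·) h0
  exact key

set_option maxHeartbeats 1600000 in
/-- **Galois equivariance on all divisors from the two-round moving hypothesis.** -/
theorem mapDomain_galois_smul_of_rounds (hdr : DivRed r S res) (σ : L ≃ₐ[ℚ] L) (τ : k ≃+* k)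
    (hσ : ∀ Y ∈ S, arithmeticGalois (modularFunctionFieldFull N) σ • Y ∈ S ∧
      res (arithmeticGalois (modularFunctionFieldFull N) σ • Y) = coeffGaloisC k N τ • res Y)
    (hrdeg : ∀ P, (r P).deg = P.deg)
    (hdegk : ∀ Q : Place k (modularFunctionFieldFullC k N), 0 < Q.deg)
    (Pinf : Place L (laurentBaseChange L (modularFunctionFieldFull N)))
    (hinf : Finsupp.mapDomain r (arithmeticGalois (modularFunctionFieldFull N) σ •
        (Finsupp.single Pinf (1 : ℤ) :
          Divisor L (laurentBaseChange L (modularFunctionFieldFull N)))) =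
      coeffGaloisC k N τ • Finsupp.mapDomain r (Finsupp.single Pinf (1 : ℤ) :
          Divisor L (laurentBaseChange L (modularFunctionFieldFull N))))
    (G : Set (Place L (laurentBaseChange L (modularFunctionFieldFull N))))
    (Q0 : Place L (laurentBaseChange L (modularFunctionFieldFull N))) (hQ0 : Q0 ∈ G)
    (h1 : ∀ P ∈ G, ∀ B : Finset (Place k (modularFunctionFieldFullC k N)),
      ∃ (R : Divisor L (laurentBaseChange L (modularFunctionFieldFull N))) (m : ℕ), 0 ≤ R ∧
        (Finsupp.single P 1 + R - m • Finsupp.single Pinf 1) ∈ Divisor.principal (K := L)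
          (F := laurentBaseChange L (modularFunctionFieldFull N)) ∧
        Disjoint (Finsupp.mapDomain r R).support B)
    (h2 : ∀ P ∉ G, ∀ B : Finset (Place k (modularFunctionFieldFullC k N)),
      ∃ (R : Divisor L (laurentBaseChange L (modularFunctionFieldFull N))) (m : ℕ), 0 ≤ R ∧
        (Finsupp.single P 1 + R - m • Finsupp.single Q0 1) ∈ Divisor.principal (K := L)
          (F := laurentBaseChange L (modularFunctionFieldFull N)) ∧
        Disjoint (Finsupp.mapDomain r R).support B)
    (D : Divisor L (laurentBaseChange L (modularFunctionFieldFull N))) :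
    Finsupp.mapDomain r (arithmeticGalois (modularFunctionFieldFull N) σ • D) =
      coeffGaloisC k N τ • Finsupp.mapDomain r D := by
  have hG : ∀ P ∈ G, Finsupp.mapDomain r (arithmeticGalois (modularFunctionFieldFull N) σ •
        (Finsupp.single P (1 : ℤ) :
          Divisor L (laurentBaseChange L (modularFunctionFieldFull N)))) =
      coeffGaloisC k N τ • Finsupp.mapDomain r (Finsupp.single P (1 : ℤ) :
          Divisor L (laurentBaseChange L (modularFunctionFieldFull N))) := by
    intro P hP
    refine mapDomain_galois_smul_single_of_moving hdr σ τ hσ hrdeg hdegk P fun B => ?_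
    obtain ⟨R, m, hR, hprin, hdisj⟩ := h1 P hP B
    exact ⟨R, m • Finsupp.single Pinf 1, hR, nsmul_single_nonneg Pinf m, hprin,
      galois_identity_nsmul σ τ hinf m, hdisj⟩
  refine mapDomain_galois_smul_of_single σ τ (fun P => ?_) D
  by_cases hP : P ∈ G
  · exact hG P hP
  · refine mapDomain_galois_smul_single_of_moving hdr σ τ hσ hrdeg hdegk P fun B => ?_
    obtain ⟨R, m, hR, hprin, hdisj⟩ := h2 P hP B
    exact ⟨R, m • Finsupp.single Q0 1, hR, nsmul_single_nonneg Q0 m, hprin,
      galois_identity_nsmul σ τ (hG Q0 hQ0) m, hdisj⟩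

end GaloisRounds

end Fermat.Agent.Gateway.ES
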